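/-
S25, block AFF/GLUE (helper505): an invertible sheaf (Prelude sense) is quasi-coherent.
-/
import Mathlib.AlgebraicGeometry.Modules.Tilde
import Mathlib.Algebra.Category.ModuleCat.Sheaf.Quasicoherent
import Fermat.Prelude.Def_AlgebraicGeometry_RelativePicardFunctor

open CategoryTheory AlgebraicGeometry Opposite Limits

universe u

namespace Fermat.Agent.S25.H505

/-- the structure sheaf (as a module over itself) is quasi-coherent -/
instance isQuasicoherent_unit (X : Scheme.{u}) :
    (SheafOfModules.unit X.ringCatSheaf).IsQuasicoherent := by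
  have h : (SheafOfModules.free (R := X.ringCatSheaf) PUnit.{u+1}).IsQuasicoherent := inferInstance
  let e : SheafOfModules.free (R := X.ringCatSheaf) PUnit.{u+1} ≅
      SheafOfModules.unit X.ringCatSheaf :=
    coproductUniqueIso (fun _ : PUnit.{u+1} => SheafOfModules.unit X.ringCatSheaf)
  exact (SheafOfModules.isQuasicoherent X.ringCatSheaf).prop_of_iso e h

/-- `M.over U` only depends on the restriction of `M` to `U`. -/
noncomputable def overIsoOfRestrictIso {X : Scheme.{u}} (U : X.Opens) (M N : X.Modules)
    (e : (Scheme.Modules.pullback U.ι).obj M ≅ (Scheme.Modules.pullback U.ι).obj N) :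
    M.over U ≅ N.over U :=
  (Scheme.Modules.overEquiv U).fullyFaithfulFunctor.preimageIso
    ((Scheme.Modules.overFunctorEquiv U).app M ≪≫
      (Scheme.Modules.restrictFunctorIsoPullback U.ι).app M ≪≫ e ≪≫
      ((Scheme.Modules.restrictFunctorIsoPullback U.ι).app N).symm ≪≫
      ((Scheme.Modules.overFunctorEquiv U).app N).symm)

/-- An invertible sheaf (in the Prelude's sense) is quasi-coherent. -/
theorem isQuasicoherent_of_isInvertible {X : Scheme.{u}} (M : X.Modules)
    (hM : Scheme.Modules.IsInvertible M) : M.IsQuasicoherent := by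
  choose U hxU hU using hM.exists_trivialization
  have hcov : (Opens.grothendieckTopology X).CoversTop U := by
    rw [Opens.coversTop_iff]
    exact eq_top_iff.mpr fun x _ => TopologicalSpace.Opens.mem_iSup.mpr ⟨x, hxU x⟩
  have : ∀ x, (M.over (U x)).IsQuasicoherent := fun x => by
    have e : M.over (U x) ≅ (SheafOfModules.unit X.ringCatSheaf).over (U x) :=
      overIsoOfRestrictIso (U x) M _
        ((hU x).some ≪≫ (Scheme.Modules.pullbackUnitIso (U x).ι).symm)
    have h1 : ((SheafOfModules.unit X.ringCatSheaf).over (U x)).IsQuasicoherent :=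
      SheafOfModules.isQuasicoherent_over.{u, u, u} (SheafOfModules.unit X.ringCatSheaf) (U x)
    exact (SheafOfModules.isQuasicoherent.{u, u, u} (X.ringCatSheaf.over (U x))).prop_of_iso
      e.symm h1
  exact SheafOfModules.IsQuasicoherent.of_coversTop M U hcov

end Fermat.Agent.S25.H505
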