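/-
S25, dictionary (helper505): the canonical map on sections `Γ(M, U) ⟶ Γ(f^* M, V)` and its
formal properties (semilinearity, naturality, restriction, composition).
-/
import Mathlib.AlgebraicGeometry.Modules.Tilde

open CategoryTheory AlgebraicGeometry Opposite TopologicalSpace

universe u

namespace Fermat.Agent.S25.H505

variable {X Y Z : Scheme.{u}}

/-! ### Generalities on sections -/

/-- elementwise naturality of a morphism of modules w.r.t. restriction -/
theorem hom_app_res {M N : X.Modules} (φ : M ⟶ N) {U V : X.Opens} (h : V ≤ U) (s : Γ(M, U)) :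
    φ.app V (M.presheaf.map (homOfLE h).op s) = N.presheaf.map (homOfLE h).op (φ.app U s) := by
  have := φ.mapPresheaf.naturality (homOfLE h).op
  exact congr($this s)

theorem presheaf_map_map (M : X.Modules) {U V W : X.Opens} (h : V ≤ U) (h' : W ≤ V)
    (s : Γ(M, U)) :
    M.presheaf.map (homOfLE h').op (M.presheaf.map (homOfLE h).op s) =
      M.presheaf.map (homOfLE (h'.trans h)).op s := by
  have : M.presheaf.map (homOfLE h).op ≫ M.presheaf.map (homOfLE h').op =
      M.presheaf.map (homOfLE (h'.trans h)).op := by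
    rw [← Functor.map_comp]; rfl
  exact congr($this s)

theorem presheaf_map_self (M : X.Modules) {U : X.Opens} (h : U ≤ U) (s : Γ(M, U)) :
    M.presheaf.map (homOfLE h).op s = s := by
  have : M.presheaf.map (homOfLE h).op = 𝟙 _ := by
    rw [← M.presheaf.map_id]; rfl
  exact congr($this s)

/-- the action of functions on sections of a pushforward -/
theorem pushforward_smul (f : Y ⟶ X) (N : Y.Modules) (U : X.Opens) (r : Γ(X, U))
    (x : Γ((Scheme.Modules.pushforward f).obj N, U)) :
    r • x = (show Γ(N, f ⁻¹ᵁ U) from (f.app U r) • (show Γ(N, f ⁻¹ᵁ U) from x)) := rfl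

/-! ### The unit on sections -/

/-- The unit of the pullback-pushforward adjunction, on sections:
`Γ(M, U) ⟶ Γ(f^* M, f ⁻¹ᵁ U)`. -/
noncomputable def unitSec (f : Y ⟶ X) (M : X.Modules) (U : X.Opens) :
    Γ(M, U) ⟶ Γ((Scheme.Modules.pullback f).obj M, f ⁻¹ᵁ U) :=
  ((Scheme.Modules.pullbackPushforwardAdjunction f).unit.app M).app U

theorem unitSec_smul (f : Y ⟶ X) (M : X.Modules) (U : X.Opens) (r : Γ(X, U)) (s : Γ(M, U)) :
    unitSec f M U (r • s) = f.app U r • unitSec f M U s :=
  Scheme.Modules.Hom.app_smul _ r s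

theorem unitSec_res (f : Y ⟶ X) (M : X.Modules) {U U' : X.Opens} (h : U' ≤ U) (s : Γ(M, U)) :
    unitSec f M U' (M.presheaf.map (homOfLE h).op s) =
      ((Scheme.Modules.pullback f).obj M).presheaf.map (homOfLE (f.preimage_mono h)).op
        (unitSec f M U s) :=
  hom_app_res ((Scheme.Modules.pullbackPushforwardAdjunction f).unit.app M) h s

theorem unitSec_naturality (f : Y ⟶ X) {M M' : X.Modules} (φ : M ⟶ M') (U : X.Opens)
    (s : Γ(M, U)) :
    ((Scheme.Modules.pullback f).map φ).app (f ⁻¹ᵁ U) (unitSec f M U s) =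
      unitSec f M' U (φ.app U s) := by
  have h1 := (Scheme.Modules.pullbackPushforwardAdjunction f).unit.naturality φ
  exact congr((Scheme.Modules.Hom.app $h1 U) s).symm

theorem unitSec_comp (g : Z ⟶ Y) (f : Y ⟶ X) (M : X.Modules) (U : X.Opens) (s : Γ(M, U)) :
    unitSec g ((Scheme.Modules.pullback f).obj M) (f ⁻¹ᵁ U) (unitSec f M U s) =
      ((Scheme.Modules.pullbackComp g f).inv.app M).app ((g ≫ f) ⁻¹ᵁ U)
        (unitSec (g ≫ f) M U s) := by
  have h1 := unit_conjugateEquiv
    ((Scheme.Modules.pullbackPushforwardAdjunction f).comp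
      (Scheme.Modules.pullbackPushforwardAdjunction g))
    (Scheme.Modules.pullbackPushforwardAdjunction (g ≫ f))
    (Scheme.Modules.pullbackComp g f).inv M
  rw [Scheme.Modules.conjugateEquiv_pullbackComp_inv] at h1
  have h2 : (((Scheme.Modules.pullbackPushforwardAdjunction f).comp
      (Scheme.Modules.pullbackPushforwardAdjunction g)).unit.app M).app U s =
      ((Scheme.Modules.pullbackComp g f).inv.app M).app ((g ≫ f) ⁻¹ᵁ U)
        (((Scheme.Modules.pullbackPushforwardAdjunction (g ≫ f)).unit.app M).app U s) :=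
    congr((Scheme.Modules.Hom.app $h1 U) s)
  have h3 : (((Scheme.Modules.pullbackPushforwardAdjunction f).comp
      (Scheme.Modules.pullbackPushforwardAdjunction g)).unit.app M).app U s =
      ((Scheme.Modules.pullbackPushforwardAdjunction g).unit.app
        ((Scheme.Modules.pullback f).obj M)).app (f ⁻¹ᵁ U)
        (((Scheme.Modules.pullbackPushforwardAdjunction f).unit.app M).app U s) := by
    rw [Adjunction.comp_unit_app]
    rfl
  exact h3.symm.trans h2

/-! ### The canonical map on sections -/

/-- The canonical map `Γ(M, U) ⟶ Γ(f^* M, V)` for `V ≤ f ⁻¹ᵁ U`: the unit of the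
pullback-pushforward adjunction followed by restriction. -/
noncomputable def secMap (f : Y ⟶ X) (M : X.Modules) {U : X.Opens} {V : Y.Opens}
    (h : V ≤ f ⁻¹ᵁ U) : Γ(M, U) ⟶ Γ((Scheme.Modules.pullback f).obj M, V) :=
  unitSec f M U ≫ ((Scheme.Modules.pullback f).obj M).presheaf.map (homOfLE h).op

theorem secMap_apply (f : Y ⟶ X) (M : X.Modules) {U : X.Opens} {V : Y.Opens}
    (h : V ≤ f ⁻¹ᵁ U) (s : Γ(M, U)) :
    secMap f M h s = ((Scheme.Modules.pullback f).obj M).presheaf.map (homOfLE h).op
      (unitSec f M U s) := rfl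

theorem secMap_smul (f : Y ⟶ X) (M : X.Modules) {U : X.Opens} {V : Y.Opens}
    (h : V ≤ f ⁻¹ᵁ U) (r : Γ(X, U)) (s : Γ(M, U)) :
    secMap f M h (r • s) = f.appLE U V h r • secMap f M h s := by
  rw [secMap_apply, secMap_apply, unitSec_smul, Scheme.Modules.map_smul]
  rfl

theorem secMap_naturality_apply (f : Y ⟶ X) {M M' : X.Modules} (φ : M ⟶ M') {U : X.Opens}
    {V : Y.Opens} (h : V ≤ f ⁻¹ᵁ U) (s : Γ(M, U)) :
    ((Scheme.Modules.pullback f).map φ).app V (secMap f M h s) = secMap f M' h (φ.app U s) := by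
  rw [secMap_apply, secMap_apply, hom_app_res, unitSec_naturality]

theorem secMap_res_apply (f : Y ⟶ X) (M : X.Modules) {U U' : X.Opens} {V V' : Y.Opens}
    (h : V ≤ f ⁻¹ᵁ U) (h' : V' ≤ f ⁻¹ᵁ U') (hU : U' ≤ U) (hV : V' ≤ V) (s : Γ(M, U)) :
    secMap f M h' (M.presheaf.map (homOfLE hU).op s) =
      ((Scheme.Modules.pullback f).obj M).presheaf.map (homOfLE hV).op (secMap f M h s) := by
  rw [secMap_apply, secMap_apply, unitSec_res, presheaf_map_map, presheaf_map_map]

theorem secMap_comp_apply (g : Z ⟶ Y) (f : Y ⟶ X) (M : X.Modules) {U : X.Opens} {V : Y.Opens}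
    {W : Z.Opens} (hV : V ≤ f ⁻¹ᵁ U) (hW : W ≤ g ⁻¹ᵁ V) (hW' : W ≤ (g ≫ f) ⁻¹ᵁ U)
    (s : Γ(M, U)) :
    secMap g ((Scheme.Modules.pullback f).obj M) hW (secMap f M hV s) =
      ((Scheme.Modules.pullbackComp g f).inv.app M).app W (secMap (g ≫ f) M hW' s) := by
  rw [secMap_apply (f := g ≫ f), hom_app_res, ← unitSec_comp, secMap_apply, secMap_apply,
    unitSec_res, presheaf_map_map]
  rfl

/-! ### Equalities of morphisms and open immersions -/

/-- compatibility of `secMap` with equalities of morphisms -/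
theorem secMap_congr_apply {f f' : Y ⟶ X} (e : f = f') (M : X.Modules) {U : X.Opens}
    {V : Y.Opens} (h : V ≤ f ⁻¹ᵁ U) (h' : V ≤ f' ⁻¹ᵁ U) (s : Γ(M, U)) :
    ((Scheme.Modules.pullbackCongr e).hom.app M).app V (secMap f M h s) = secMap f' M h' s := by
  subst e
  rfl

/-- restriction maps between equal opens are bijective -/
theorem presheaf_map_bijective_of_eq (M : X.Modules) {U V : X.Opens} (h : V ≤ U) (h' : U ≤ V) :
    Function.Bijective (M.presheaf.map (homOfLE h).op) := by
  refine ⟨fun a b hab => ?_, fun b => ⟨M.presheaf.map (homOfLE h').op b, ?_⟩⟩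
  · have := congrArg (M.presheaf.map (homOfLE h').op) hab
    rwa [presheaf_map_map, presheaf_map_map, presheaf_map_self, presheaf_map_self] at this
  · rw [presheaf_map_map, presheaf_map_self]

section OpenImmersion

variable (j : Y ⟶ X) [IsOpenImmersion j] (M : X.Modules)

/-- For an open immersion, the unit on sections is the restriction map followed by the
comparison isomorphism between restriction and pullback. -/
theorem unitSec_openImmersion (U : X.Opens) (s : Γ(M, U)) :
    unitSec j M U s =
      ((Scheme.Modules.restrictFunctorIsoPullback j).hom.app M).app (j ⁻¹ᵁ U)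
        ((M.restrictAppIso j (j ⁻¹ᵁ U)).inv
          (M.presheaf.map (homOfLE (j.image_preimage_le U)).op s)) := by
  have h := Adjunction.unit_leftAdjointUniq_hom_app (Scheme.Modules.restrictAdjunction j)
    (Scheme.Modules.pullbackPushforwardAdjunction j) M
  exact congr((Scheme.Modules.Hom.app $h U) s).symm

theorem restrict_map_restrictAppIso_inv {V V' : Y.Opens} (h : V' ≤ V) (x : Γ(M, j ''ᵁ V)) :
    (M.restrict j).presheaf.map (homOfLE h).op ((M.restrictAppIso j V).inv x) =
      (M.restrictAppIso j V').inv (M.presheaf.map (homOfLE (j.image_mono h)).op x) := rfl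

theorem secMap_openImmersion {U : X.Opens} {V : Y.Opens} (h : V ≤ j ⁻¹ᵁ U) (s : Γ(M, U)) :
    secMap j M h s =
      ((Scheme.Modules.restrictFunctorIsoPullback j).hom.app M).app V
        ((M.restrictAppIso j V).inv (M.presheaf.map (homOfLE (show j ''ᵁ V ≤ U from
          (j.image_mono h).trans (j.image_preimage_le U))).op s)) := by
  rw [secMap_apply, unitSec_openImmersion, ← hom_app_res, restrict_map_restrictAppIso_inv,
    presheaf_map_map]

theorem secMap_bijective_of_isOpenImmersion {U : X.Opens} {V : Y.Opens} (h : V ≤ j ⁻¹ᵁ U)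
    (h' : U ≤ j ''ᵁ V) : Function.Bijective (secMap j M h) := by
  have h1 : Function.Bijective (((Scheme.Modules.restrictFunctorIsoPullback j).hom.app M).app V) :=
    ConcreteCategory.bijective_of_isIso _
  have h2 := presheaf_map_bijective_of_eq M
    (show j ''ᵁ V ≤ U from (j.image_mono h).trans (j.image_preimage_le U)) h'
  have h3 : Function.Bijective (M.restrictAppIso j V).inv :=
    ConcreteCategory.bijective_of_isIso _
  have : (secMap j M h : Γ(M, U) → _) =
      (((Scheme.Modules.restrictFunctorIsoPullback j).hom.app M).app V) ∘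
        (M.restrictAppIso j V).inv ∘
        (M.presheaf.map (homOfLE (show j ''ᵁ V ≤ U from
          (j.image_mono h).trans (j.image_preimage_le U))).op) :=
    funext (secMap_openImmersion j M h)
  rw [this]
  exact h1.comp (h3.comp h2)

theorem appLE_bijective_of_isOpenImmersion {U : X.Opens} {V : Y.Opens} (h : V ≤ j ⁻¹ᵁ U)
    (h' : U ≤ j ''ᵁ V) : Function.Bijective (j.appLE U V h).hom := by
  have hUV : U = j ''ᵁ V := le_antisymm h' ((j.image_mono h).trans (j.image_preimage_le U))
  subst hUV
  have : j.appLE (j ''ᵁ V) V h = (j.appIso V).hom := by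
    rw [Scheme.Hom.appIso_hom']
  rw [this]
  exact ConcreteCategory.bijective_of_isIso (j.appIso V).hom

end OpenImmersion

end Fermat.Agent.S25.H505
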