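/-
S25, dictionary (helper505): base change along a ring homomorphism for additive maps between
modules over different rings (no `Algebra` / `IsScalarTower` instances needed).
-/
import Mathlib.RingTheory.IsTensorProduct

universe u

namespace Fermat.Agent.S25.H505

open TensorProduct

section

variable {R R' R'' : Type u} [CommRing R] [CommRing R'] [CommRing R'']
  {N N' N'' : Type u} [AddCommGroup N] [AddCommGroup N'] [AddCommGroup N'']
  [Module R N] [Module R' N'] [Module R'' N'']

/-- `g` is semilinear with respect to the ring homomorphism `ρ`. -/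
def IsSL (ρ : R →+* R') (g : N →+ N') : Prop := ∀ (r : R) (n : N), g (r • n) = ρ r • g n

theorem IsSL.comp {ρ : R →+* R'} {g : N →+ N'} {ρ' : R' →+* R''} {g' : N' →+ N''}
    (h : IsSL ρ g) (h' : IsSL ρ' g') : IsSL (ρ'.comp ρ) (g'.comp g) := fun r n => by
  simp only [AddMonoidHom.comp_apply, RingHom.comp_apply, h r n, h' (ρ r) (g n)]

/-- The additive map `g : N → N'`, semilinear with respect to `ρ : R → R'`, exhibits `N'` as the
base change `R' ⊗[R] N`: universal property with respect to semilinear maps to `R'`-modules. -/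
structure IsBC (ρ : R →+* R') (g : N →+ N') : Prop where
  sl : IsSL ρ g
  lift : ∀ (Q : Type u) [AddCommGroup Q] [Module R' Q] (q : N →+ Q), IsSL ρ q →
    ∃! q' : N' →ₗ[R'] Q, ∀ n, q' (g n) = q n

/-- A semilinear map as a linear map for the module structure pulled back along `ρ`. -/
def IsSL.toLinearMap {ρ : R →+* R'} {g : N →+ N'} (h : IsSL ρ g) :
    letI : Module R N' := Module.compHom N' ρ
    N →ₗ[R] N' :=
  letI : Module R N' := Module.compHom N' ρ
  { toFun := g
    map_add' := g.map_add
    map_smul' := h }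

theorem isBC_of_isBaseChange [Algebra R R'] [Module R N'] [IsScalarTower R R' N']
    (f : N →ₗ[R] N') (hf : IsBaseChange R' f) : IsBC (algebraMap R R') f.toAddMonoidHom where
  sl r n := by
    change f (r • n) = algebraMap R R' r • f n
    rw [f.map_smul, algebraMap_smul]
  lift Q _ _ q hq := by
    let _ : Module R Q := Module.compHom Q (algebraMap R R')
    have : IsScalarTower R R' Q := ⟨fun r r' x => by
      rw [Algebra.smul_def, mul_smul]
      rfl⟩
    let q₀ : N →ₗ[R] Q := { toFun := q, map_add' := q.map_add, map_smul' := hq }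
    refine ⟨hf.lift q₀, fun n => hf.lift_eq q₀ n, fun q' hq' => ?_⟩
    exact hf.algHom_ext _ _ (fun n => (hq' n).trans (hf.lift_eq q₀ n).symm)

theorem IsBC.isBaseChange [Algebra R R'] [Module R N'] [IsScalarTower R R' N']
    (f : N →ₗ[R] N') (hf : IsBC (algebraMap R R') f.toAddMonoidHom) : IsBaseChange R' f := by
  apply IsBaseChange.of_lift_unique
  intro Q _ _ _ _ g
  let _ : AddCommGroup Q := Module.addCommMonoidToAddCommGroup R'
  have hg : IsSL (algebraMap R R') g.toAddMonoidHom := fun r n => by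
    change g (r • n) = algebraMap R R' r • g n
    rw [g.map_smul, algebraMap_smul]
  obtain ⟨q', h1, h2⟩ := hf.lift Q g.toAddMonoidHom hg
  refine ⟨q', LinearMap.ext h1, fun q'' hq'' => h2 q'' (fun n => ?_)⟩
  exact LinearMap.congr_fun hq'' n

theorem IsSL.symm_smul {ρ : R →+* R'} {g : N →+ N'} (h : IsSL ρ g) (e : N ≃+ N')
    (he : ∀ n, e n = g n) (r : R) (x : N') : e.symm (ρ r • x) = r • e.symm x := by
  apply e.injective
  rw [e.apply_symm_apply, he, h, ← he, e.apply_symm_apply]

/-- A semilinear bijection over a bijective ring homomorphism is a base change. -/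
theorem isBC_of_bijective {ρ : R →+* R'} {g : N →+ N'} (h : IsSL ρ g)
    (hρ : Function.Bijective ρ) (hg : Function.Bijective g) : IsBC ρ g where
  sl := h
  lift Q _ _ q hq := by
    let e : N ≃+ N' := AddEquiv.ofBijective g hg
    have he : ∀ n, e n = g n := fun _ => rfl
    refine ⟨{ toFun := fun n' => q (e.symm n')
              map_add' := fun x y => by rw [e.symm.map_add, q.map_add]
              map_smul' := fun r' x => by
                obtain ⟨r, rfl⟩ := hρ.2 r'
                simp only [RingHom.id_apply]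
                rw [h.symm_smul e he, hq] }, fun n => ?_, fun q' hq' => ?_⟩
    · change q (e.symm (g n)) = q n
      rw [← he, e.symm_apply_apply]
    · ext n'
      change q' n' = q (e.symm n')
      rw [← hq', ← he, e.apply_symm_apply]

theorem IsBC.comp {ρ : R →+* R'} {g : N →+ N'} {ρ' : R' →+* R''} {g' : N' →+ N''}
    (h : IsBC ρ g) (h' : IsBC ρ' g') : IsBC (ρ'.comp ρ) (g'.comp g) where
  sl := h.sl.comp h'.sl
  lift Q _ _ q hq := by
    let _ : Module R' Q := Module.compHom Q ρ'
    have hsm : ∀ (r' : R') (x : Q), r' • x = ρ' r' • x := fun _ _ => rfl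
    obtain ⟨q₁, hq₁, hq₁'⟩ := h.lift Q q (fun r n => by rw [hq r n]; rfl)
    obtain ⟨q₂, hq₂, hq₂'⟩ := h'.lift Q q₁.toAddMonoidHom
      (fun r' n' => by
        change q₁ (r' • n') = ρ' r' • q₁ n'
        rw [q₁.map_smul, hsm])
    refine ⟨q₂, fun n => ?_, fun q₃ hq₃ => ?_⟩
    · change q₂ (g' (g n)) = q n
      rw [hq₂]; exact hq₁ n
    · apply hq₂'
      intro n'
      have : (⟨⟨fun x => q₃ (g' x), fun x y => by rw [g'.map_add, q₃.map_add]⟩,
          fun r' x => by
            change q₃ (g' (r' • x)) = r' • q₃ (g' x)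
            rw [h'.sl, q₃.map_smul, hsm]⟩ : N' →ₗ[R'] Q) = q₁ :=
        hq₁' _ (fun n => hq₃ n)
      exact LinearMap.congr_fun this n'

/-- Cancellation on the left: if `g` and `g' ∘ g` are base changes and `g'` is semilinear,
then `g'` is a base change. -/
theorem IsBC.of_comp {ρ : R →+* R'} {g : N →+ N'} {ρ' : R' →+* R''} {g' : N' →+ N''}
    (h : IsBC ρ g) (hsl : IsSL ρ' g') (hc : IsBC (ρ'.comp ρ) (g'.comp g)) : IsBC ρ' g' where
  sl := hsl
  lift Q _ _ q hq := by
    let _ : Module R' Q := Module.compHom Q ρ'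
    have hsm : ∀ (r' : R') (x : Q), r' • x = ρ' r' • x := fun _ _ => rfl
    obtain ⟨q₂, hq₂, hq₂'⟩ := hc.lift Q (q.comp g) (h.sl.comp hq)
    -- uniqueness for `h`, with target `Q` viewed as an `R'`-module
    have huniq : ∀ a b : N' →ₗ[R'] Q, (∀ n, a (g n) = b (g n)) → a = b := fun a b hab => by
      obtain ⟨c, -, hc'⟩ := h.lift Q (b.toAddMonoidHom.comp g)
        (fun r n => by
          change b (g (r • n)) = ρ r • b (g n)
          rw [h.sl, b.map_smul])
      rw [hc' a hab, hc' b (fun _ => rfl)]
    let q' : N' →ₗ[R'] Q :=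
      { toFun := q, map_add' := q.map_add, map_smul' := fun r' x => by
          simp only [RingHom.id_apply]; rw [hq, hsm] }
    let q₂' : N' →ₗ[R'] Q :=
      { toFun := fun x => q₂ (g' x), map_add' := fun x y => by rw [g'.map_add, q₂.map_add]
        map_smul' := fun r' x => by
          simp only [RingHom.id_apply]; rw [hsl, q₂.map_smul, hsm] }
    have e : q₂' = q' := huniq _ _ (fun n => hq₂ n)
    refine ⟨q₂, fun n' => LinearMap.congr_fun e n', fun q₃ hq₃ => ?_⟩
    exact hq₂' q₃ (fun n => hq₃ (g n))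

/-- Cancellation of a bijection on the right: if `g'` is a semilinear bijection over a
bijective ring homomorphism and `g' ∘ g` is a base change, then `g` is a base change. -/
theorem IsBC.of_comp_bijective {ρ : R →+* R'} {g : N →+ N'} {ρ' : R' →+* R''} {g' : N' →+ N''}
    (hsl : IsSL ρ g) (hsl' : IsSL ρ' g') (hρ' : Function.Bijective ρ')
    (hg' : Function.Bijective g') (hc : IsBC (ρ'.comp ρ) (g'.comp g)) : IsBC ρ g where
  sl := hsl
  lift Q _ _ q hq := by
    let σ : R'' →+* R' := (RingEquiv.ofBijective ρ' hρ').symm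
    have hσ : ∀ r', σ (ρ' r') = r' := fun r' => (RingEquiv.ofBijective ρ' hρ').symm_apply_apply r'
    have hσ' : ∀ r'', ρ' (σ r'') = r'' :=
      fun r'' => (RingEquiv.ofBijective ρ' hρ').apply_symm_apply r''
    let _ : Module R'' Q := Module.compHom Q σ
    have hsm : ∀ (r'' : R'') (x : Q), r'' • x = σ r'' • x := fun _ _ => rfl
    obtain ⟨q₂, hq₂, hq₂'⟩ := hc.lift Q q (fun r n => by
      rw [hq, hsm, RingHom.comp_apply, hσ])
    refine ⟨{ toFun := fun x => q₂ (g' x), map_add' := fun x y => by rw [g'.map_add, q₂.map_add]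
              map_smul' := fun r' x => by
                simp only [RingHom.id_apply]; rw [hsl', q₂.map_smul, hsm, hσ] },
      fun n => hq₂ n, fun q₃ hq₃ => ?_⟩
    let e : N' ≃+ N'' := AddEquiv.ofBijective g' hg'
    have he : ∀ n, e n = g' n := fun _ => rfl
    have := hq₂' { toFun := fun x => q₃ (e.symm x)
                   map_add' := fun x y => by rw [e.symm.map_add, q₃.map_add]
                   map_smul' := fun r'' x => by
                    simp only [RingHom.id_apply]
                    rw [hsm, ← q₃.map_smul, ← hsl'.symm_smul e he, hσ'] }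
      (fun n => by
        change q₃ (e.symm (g' (g n))) = q n
        rw [← he, e.symm_apply_apply]; exact hq₃ n)
    ext x
    have h2 := LinearMap.congr_fun this (g' x)
    change q₃ (e.symm (g' x)) = q₂ (g' x) at h2
    rw [← he, e.symm_apply_apply] at h2
    exact h2

theorem IsBC.congr {ρ ρ' : R →+* R'} {g g' : N →+ N'} (h : IsBC ρ g) (hρ : ∀ r, ρ r = ρ' r)
    (hg : ∀ n, g n = g' n) : IsBC ρ' g' := by
  obtain rfl : ρ = ρ' := RingHom.ext hρ
  obtain rfl : g = g' := AddMonoidHom.ext hg
  exact h

end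

section Square

variable {R R' R₁ R₁' : Type u} [CommRing R] [CommRing R'] [CommRing R₁] [CommRing R₁']
  {N N' N₁ N₁' : Type u} [AddCommGroup N] [AddCommGroup N'] [AddCommGroup N₁]
  [AddCommGroup N₁'] [Module R N] [Module R' N'] [Module R₁ N₁] [Module R₁' N₁']

/-- Transport of a base change along semilinear bijections (forward direction). -/
theorem IsBC.of_square {ρ : R →+* R'} {g : N →+ N'} {ρ₁ : R₁ →+* R₁'} {g₁ : N₁ →+ N₁'}
    {α : R →+* R₁} {β : R' →+* R₁'} {a : N →+ N₁} {b : N' →+ N₁'}
    (h : IsBC ρ g) (hsl : IsSL ρ₁ g₁) (ha : IsSL α a) (hb : IsSL β b)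
    (hα : Function.Bijective α) (hβ : Function.Bijective β)
    (ha' : Function.Bijective a) (hb' : Function.Bijective b)
    (hring : ∀ r, ρ₁ (α r) = β (ρ r)) (hsq : ∀ n, g₁ (a n) = b (g n)) : IsBC ρ₁ g₁ := by
  have h1 : IsBC (β.comp ρ) (b.comp g) := h.comp (isBC_of_bijective hb hβ hb')
  have h2 : IsBC (ρ₁.comp α) (g₁.comp a) :=
    h1.congr (fun r => (hring r).symm) (fun n => (hsq n).symm)
  exact IsBC.of_comp (isBC_of_bijective ha hα ha') hsl h2

/-- Transport of a base change along semilinear bijections (backward direction). -/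
theorem IsBC.of_square' {ρ : R →+* R'} {g : N →+ N'} {ρ₁ : R₁ →+* R₁'} {g₁ : N₁ →+ N₁'}
    {α : R →+* R₁} {β : R' →+* R₁'} {a : N →+ N₁} {b : N' →+ N₁'}
    (h : IsBC ρ₁ g₁) (hsl : IsSL ρ g) (ha : IsSL α a) (hb : IsSL β b)
    (hα : Function.Bijective α) (hβ : Function.Bijective β)
    (ha' : Function.Bijective a) (hb' : Function.Bijective b)
    (hring : ∀ r, ρ₁ (α r) = β (ρ r)) (hsq : ∀ n, g₁ (a n) = b (g n)) : IsBC ρ g := by
  have h1 : IsBC (ρ₁.comp α) (g₁.comp a) := (isBC_of_bijective ha hα ha').comp h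
  have h2 : IsBC (β.comp ρ) (b.comp g) := h1.congr hring hsq
  exact IsBC.of_comp_bijective hsl hb hβ hb' h2

end Square

section Uniqueness

variable {R R' R'' : Type u} [CommRing R] [CommRing R'] [CommRing R'']
  {N N' N'' : Type u} [AddCommGroup N] [AddCommGroup N'] [AddCommGroup N'']
  [Module R N] [Module R' N'] [Module R'' N'']

/-- Semilinear maps out of a base change are determined by their values on the image. -/
theorem IsBC.hom_ext {ρ : R →+* R'} {g : N →+ N'} (h : IsBC ρ g) {σ : R' →+* R''}
    {p q : N' →+ N''} (hp : IsSL σ p) (hq : IsSL σ q) (hpq : ∀ n, p (g n) = q (g n)) :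
    p = q := by
  let _ : Module R' N'' := Module.compHom N'' σ
  have hsm : ∀ (r' : R') (x : N''), r' • x = σ r' • x := fun _ _ => rfl
  obtain ⟨c, -, hc⟩ := h.lift N'' (q.comp g) (fun r n => by
    change q (g (r • n)) = ρ r • q (g n)
    rw [h.sl, hq, hsm])
  have e1 := hc { toFun := p, map_add' := p.map_add, map_smul' := fun r' x => by
                    simp only [RingHom.id_apply]; rw [hp, hsm] } hpq
  have e2 := hc { toFun := q, map_add' := q.map_add, map_smul' := fun r' x => by
                    simp only [RingHom.id_apply]; rw [hq, hsm] } (fun _ => rfl)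
  ext x
  exact LinearMap.congr_fun (e1.trans e2.symm) x

/-- Existence of the comparison map between a base change and any semilinear map. -/
theorem IsBC.exists_lift {ρ : R →+* R'} {g : N →+ N'} (h : IsBC ρ g) {σ : R' →+* R''}
    {g₂ : N →+ N''} (h₂ : IsSL (σ.comp ρ) g₂) :
    ∃ e : N' →+ N'', IsSL σ e ∧ ∀ n, e (g n) = g₂ n := by
  let _ : Module R' N'' := Module.compHom N'' σ
  have hsm : ∀ (r' : R') (x : N''), r' • x = σ r' • x := fun _ _ => rfl
  obtain ⟨c, hc, -⟩ := h.lift N'' g₂ (fun r n => by rw [h₂, hsm]; rfl)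
  exact ⟨c.toAddMonoidHom, fun r' x => by
    change c (r' • x) = σ r' • c x
    rw [c.map_smul, hsm], hc⟩

/-- Two base changes of the same module along ring homomorphisms differing by a ring
isomorphism are (uniquely) semilinearly isomorphic. -/
theorem IsBC.exists_equiv {ρ : R →+* R'} {g : N →+ N'} (h : IsBC ρ g) (σ : R' ≃+* R'')
    {ρ₂ : R →+* R''} {g₂ : N →+ N''} (h₂ : IsBC ρ₂ g₂) (hρ : ∀ r, σ (ρ r) = ρ₂ r) :
    ∃ e : N' ≃+ N'', IsSL (σ : R' →+* R'') (e : N' →+ N'') ∧ ∀ n, e (g n) = g₂ n := by
  have hsl₂ : IsSL ((σ : R' →+* R'').comp ρ) g₂ := fun r n => by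
    rw [h₂.sl]; congr 1; exact (hρ r).symm
  obtain ⟨e, he, heg⟩ := h.exists_lift (σ := (σ : R' →+* R'')) hsl₂
  have hsl : IsSL ((σ.symm : R'' →+* R').comp ρ₂) g := fun r n => by
    rw [h.sl]; congr 1
    change ρ r = σ.symm (ρ₂ r)
    rw [← hρ, σ.symm_apply_apply]
  obtain ⟨e', he', heg'⟩ := h₂.exists_lift (σ := (σ.symm : R'' →+* R')) hsl
  have h1 : e'.comp e = AddMonoidHom.id N' :=
    h.hom_ext (σ := RingHom.id R') (fun r x => by
      change e' (e (r • x)) = r • e' (e x)
      rw [he, he']
      change σ.symm (σ r) • _ = _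
      rw [σ.symm_apply_apply]) (fun r x => rfl)
      (fun n => by
        change e' (e (g n)) = g n
        rw [heg, heg'])
  have h2 : e.comp e' = AddMonoidHom.id N'' :=
    h₂.hom_ext (σ := RingHom.id R'') (fun r x => by
      change e (e' (r • x)) = r • e (e' x)
      rw [he', he]
      change σ (σ.symm r) • _ = _
      rw [σ.apply_symm_apply]) (fun r x => rfl)
      (fun n => by
        change e (e' (g₂ n)) = g₂ n
        rw [heg', heg])
  refine ⟨{ toFun := e, invFun := e', left_inv := fun x => DFunLike.congr_fun h1 x,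
            right_inv := fun x => DFunLike.congr_fun h2 x, map_add' := e.map_add }, he, heg⟩

end Uniqueness

end Fermat.Agent.S25.H505
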