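/-
S25, block AFF, leaf F2 (helper505): pullback of `tilde` along `Spec.map φ` is `tilde` of the
extension of scalars.  Mathlib only.
-/
import Mathlib.AlgebraicGeometry.Modules.Tilde
import Mathlib.Algebra.Category.ModuleCat.ChangeOfRings

open CategoryTheory AlgebraicGeometry Opposite

universe u

namespace Fermat.Agent.S25.H505

variable {R S : CommRingCat.{u}} (φ : R ⟶ S)

/-- Global sections of a pushforward along `Spec.map φ` are the restriction of scalars of the
global sections. -/
noncomputable def pushforwardCompΓIso :
    Scheme.Modules.pushforward (Spec.map φ) ⋙ moduleSpecΓFunctor (R := R) ≅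
      moduleSpecΓFunctor (R := S) ⋙ ModuleCat.restrictScalars φ.hom :=
  (Functor.associator _ _ _).symm ≪≫
  Functor.isoWhiskerRight (pushforwardCompModulesSpecToSheafIso φ)
    (TopCat.Sheaf.forget _ _ ⋙ (evaluation _ _).obj (.op ⊤)) ≪≫
  NatIso.ofComponents (fun M => Iso.refl _) (by
    intro M N f
    simp only [Iso.refl_hom]
    rfl)

/-- **F2** (functor form): `pullback (Spec.map φ) ∘ tilde ≅ tilde ∘ (S ⊗[R] -)`, by uniqueness of
left adjoints. -/
noncomputable def tildeCompPullbackIso :
    tilde.functor R ⋙ Scheme.Modules.pullback (Spec.map φ) ≅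
      ModuleCat.extendScalars φ.hom ⋙ tilde.functor S :=
  Adjunction.leftAdjointUniq
    ((tilde.adjunction (R := R)).comp
      (Scheme.Modules.pullbackPushforwardAdjunction (Spec.map φ)))
    (((ModuleCat.extendRestrictScalarsAdj φ.hom).comp (tilde.adjunction (R := S))).ofNatIsoRight
      (pushforwardCompΓIso φ).symm)

/-- **F2** (object form). -/
noncomputable def pullbackTildeIso (N : ModuleCat.{u} R) :
    (Scheme.Modules.pullback (Spec.map φ)).obj (tilde N) ≅
      tilde ((ModuleCat.extendScalars φ.hom).obj N) :=
  (tildeCompPullbackIso φ).app N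

/-- **F2** naturality in `N`. -/
theorem pullbackTildeIso_naturality {N N' : ModuleCat.{u} R} (f : N ⟶ N') :
    (Scheme.Modules.pullback (Spec.map φ)).map ((tilde.functor R).map f) ≫
        (pullbackTildeIso φ N').hom =
      (pullbackTildeIso φ N).hom ≫
        (tilde.functor S).map ((ModuleCat.extendScalars φ.hom).map f) :=
  (tildeCompPullbackIso φ).hom.naturality f

end Fermat.Agent.S25.H505
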