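/-
S25, dictionary core (helper505): for `f : Y ⟶ X`, `M` quasi-coherent on `X` and affine opens
`V ≤ f ⁻¹ᵁ U`, the canonical map `Γ(M, U) → Γ(f^* M, V)` is a base change along
`Γ(X, U) → Γ(Y, V)` (`secMap_isBC`).
-/
import Fermat.Agent.S25.H505.TildePullback
import Fermat.Agent.S25.H505.SectionMap
import Fermat.Agent.S25.H505.SemilinearBC

open CategoryTheory AlgebraicGeometry Opposite TopologicalSpace

universe u

namespace Fermat.Agent.S25.H505

section SpecCase

variable {R S : CommRingCat.{u}} (φ : R ⟶ S) (N : ModuleCat.{u} R)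

theorem unit_compat :
    ((tilde.adjunction (R := R)).comp
      (Scheme.Modules.pullbackPushforwardAdjunction (Spec.map φ))).unit.app N ≫
      (Scheme.Modules.pushforward (Spec.map φ) ⋙ moduleSpecΓFunctor).map
        ((tildeCompPullbackIso φ).hom.app N) =
    (((ModuleCat.extendRestrictScalarsAdj φ.hom).comp (tilde.adjunction (R := S))).ofNatIsoRight
      (pushforwardCompΓIso φ).symm).unit.app N :=
  Adjunction.unit_leftAdjointUniq_hom_app _ _ N

theorem unit_compat_apply (n : N) :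
    ((pullbackTildeIso φ N).hom.app ⊤)
      (unitSec (Spec.map φ) (tilde N) ⊤ ((tilde.toOpen N ⊤).hom n)) =
    (tilde.toOpen ((ModuleCat.extendScalars φ.hom).obj N) ⊤).hom
      (((ModuleCat.extendRestrictScalarsAdj φ.hom).unit.app N).hom n) := by
  have h := unit_compat φ N
  have h' := congr(($h).hom n)
  simp only [Adjunction.comp_unit_app, Adjunction.ofNatIsoRight_unit, NatTrans.comp_app,
    Functor.whiskerLeft_app] at h'
  exact h'

/-- `N → Γ(tilde N, ⊤)` as an additive map -/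
noncomputable def tildeTop (N : ModuleCat.{u} R) : N →+ Γ(tilde N, ⊤) :=
  (tilde.toOpen N ⊤).hom.toAddMonoidHom

theorem tildeTop_bijective : Function.Bijective (tildeTop N) :=
  ConcreteCategory.bijective_of_isIso (tilde.toOpen N ⊤)

theorem tildeTop_isSL : IsSL (Scheme.ΓSpecIso R).inv.hom (tildeTop N) := fun r n => by
  have h1 : (tilde.toOpen N ⊤).hom (r • n) = r • (tilde.toOpen N ⊤).hom n :=
    (tilde.toOpen N ⊤).hom.map_smul r n
  refine h1.trans ?_
  erw [Scheme.Modules.smul_Spec_def]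

/-- the unit `N → S ⊗[R] N` of extension of scalars, as an additive map -/
noncomputable def extUnit : N →+ ((ModuleCat.extendScalars φ.hom).obj N) :=
  ((ModuleCat.extendRestrictScalarsAdj φ.hom).unit.app N).hom.toAddMonoidHom

theorem extUnit_isBC : IsBC φ.hom (extUnit φ N) := by
  let _ : Algebra R S := φ.hom.toAlgebra
  have h := isBC_of_isBaseChange (TensorProduct.mk R S N 1) (TensorProduct.isBaseChange R N S)
  exact h

/-- The unit on global sections `Γ(tilde N, ⊤) → Γ(f^* (tilde N), ⊤)` for `f = Spec.map φ`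
is a base change along `Γ(Spec R, ⊤) → Γ(Spec S, ⊤)`. -/
theorem unitSec_tilde_isBC :
    IsBC ((Spec.map φ).app ⊤).hom (unitSec (Spec.map φ) (tilde N) ⊤).hom := by
  have hιR : Function.Bijective (Scheme.ΓSpecIso R).inv.hom :=
    ConcreteCategory.bijective_of_isIso (Scheme.ΓSpecIso R).inv
  have hιS : Function.Bijective (Scheme.ΓSpecIso S).inv.hom :=
    ConcreteCategory.bijective_of_isIso (Scheme.ΓSpecIso S).inv
  have hsl : IsSL ((Spec.map φ).app ⊤).hom (unitSec (Spec.map φ) (tilde N) ⊤).hom :=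
    fun r s => unitSec_smul (Spec.map φ) (tilde N) ⊤ r s
  have h1 : IsBC ((Scheme.ΓSpecIso S).inv.hom.comp φ.hom)
      ((tildeTop ((ModuleCat.extendScalars φ.hom).obj N)).comp (extUnit φ N)) :=
    (extUnit_isBC φ N).comp (isBC_of_bijective (tildeTop_isSL _) hιS (tildeTop_bijective _))
  have hθsl : IsSL (RingHom.id Γ(Spec S, ⊤))
      ((pullbackTildeIso φ N).hom.app ⊤).hom := fun r s =>
    Scheme.Modules.Hom.app_smul _ r s
  have hθbij : Function.Bijective ((pullbackTildeIso φ N).hom.app ⊤).hom :=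
    ConcreteCategory.bijective_of_isIso ((pullbackTildeIso φ N).hom.app ⊤)
  have hring : ∀ r, ((Scheme.ΓSpecIso S).inv.hom.comp φ.hom) r =
      ((RingHom.id Γ(Spec S, ⊤)).comp
        (((Spec.map φ).app ⊤).hom.comp (Scheme.ΓSpecIso R).inv.hom)) r := fun r => by
    have := Scheme.ΓSpecIso_inv_naturality φ
    exact congr($this r)
  have h2 : IsBC ((RingHom.id Γ(Spec S, ⊤)).comp
        (((Spec.map φ).app ⊤).hom.comp (Scheme.ΓSpecIso R).inv.hom))
      (((pullbackTildeIso φ N).hom.app ⊤).hom.comp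
        ((unitSec (Spec.map φ) (tilde N) ⊤).hom.comp (tildeTop N))) :=
    h1.congr hring (fun n => (unit_compat_apply φ N n).symm)
  have h3 : IsBC (((Spec.map φ).app ⊤).hom.comp (Scheme.ΓSpecIso R).inv.hom)
      ((unitSec (Spec.map φ) (tilde N) ⊤).hom.comp (tildeTop N)) :=
    IsBC.of_comp_bijective ((tildeTop_isSL N).comp hsl) hθsl Function.bijective_id hθbij h2
  exact IsBC.of_comp (isBC_of_bijective (tildeTop_isSL N) hιR (tildeTop_bijective N)) hsl h3


/-- The same for any quasi-coherent module on `Spec R`. -/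
theorem unitSec_isBC_of_isIso_fromTildeΓ (F : (Spec R).Modules) [IsIso F.fromTildeΓ] :
    IsBC ((Spec.map φ).app ⊤).hom (unitSec (Spec.map φ) F ⊤).hom := by
  let N : ModuleCat.{u} R := (modulesSpecToSheaf.obj F).presheaf.obj (.op ⊤)
  let i : tilde N ≅ F := asIso F.fromTildeΓ
  refine (unitSec_tilde_isBC φ N).of_square
    (α := RingHom.id _) (β := RingHom.id _)
    (a := (i.hom.app ⊤).hom) (b := (((Scheme.Modules.pullback (Spec.map φ)).map i.hom).app
      ((Spec.map φ) ⁻¹ᵁ ⊤)).hom)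
    (fun r s => unitSec_smul (Spec.map φ) F ⊤ r s)
    (fun r s => Scheme.Modules.Hom.app_smul _ r s)
    (fun r s => Scheme.Modules.Hom.app_smul _ r s)
    Function.bijective_id Function.bijective_id
    (ConcreteCategory.bijective_of_isIso (i.hom.app ⊤))
    (ConcreteCategory.bijective_of_isIso
      (((Scheme.Modules.pullback (Spec.map φ)).map i.hom).app ((Spec.map φ) ⁻¹ᵁ ⊤)))
    (fun r => rfl)
    (fun n => (unitSec_naturality (Spec.map φ) i.hom ⊤ n).symm)

end SpecCase

section General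

variable {X Y : Scheme.{u}}

theorem isQuasicoherent_pullback_of_isOpenImmersion (j : Y ⟶ X) [IsOpenImmersion j]
    (M : X.Modules) [M.IsQuasicoherent] :
    ((Scheme.Modules.pullback j).obj M).IsQuasicoherent :=
  (SheafOfModules.isQuasicoherent.{u, u, u} Y.ringCatSheaf).prop_of_iso
    ((Scheme.Modules.restrictFunctorIsoPullback j).app M) inferInstance

/-- **Sections of a pullback over affine opens are a base change.**  For `f : Y ⟶ X`, a
quasi-coherent module `M` on `X` and affine opens `V ≤ f ⁻¹ᵁ U`, the canonical map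
`Γ(M, U) → Γ(f^* M, V)` is a base change along `Γ(X, U) → Γ(Y, V)`. -/
theorem secMap_isBC (f : Y ⟶ X) (M : X.Modules) [M.IsQuasicoherent] {U : X.Opens}
    (hU : IsAffineOpen U) {V : Y.Opens} (hV : IsAffineOpen V) (h : V ≤ f ⁻¹ᵁ U) :
    IsBC (f.appLE U V h).hom (secMap f M h).hom := by
  have fac : Spec.map (f.appLE U V h) ≫ hU.fromSpec = hV.fromSpec ≫ f :=
    IsAffineOpen.SpecMap_appLE_fromSpec f hU hV h
  have : ((Scheme.Modules.pullback hU.fromSpec).obj M).IsQuasicoherent :=
    isQuasicoherent_pullback_of_isOpenImmersion hU.fromSpec M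
  have : IsIso ((Scheme.Modules.pullback hU.fromSpec).obj M).fromTildeΓ :=
    Scheme.Modules.isIso_fromTildeΓ_of_isQuasicoherent _
  -- the four maps
  have hA_le : (⊤ : (Spec Γ(X, U)).Opens) ≤ hU.fromSpec ⁻¹ᵁ U := by
    rw [hU.fromSpec_preimage_self]
  have hA_ge : U ≤ hU.fromSpec ''ᵁ ⊤ := by
    rw [Scheme.Hom.image_top_eq_opensRange, hU.opensRange_fromSpec]
  have hD_le : (⊤ : (Spec Γ(Y, V)).Opens) ≤ hV.fromSpec ⁻¹ᵁ V := by
    rw [hV.fromSpec_preimage_self]
  have hD_ge : V ≤ hV.fromSpec ''ᵁ ⊤ := by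
    rw [Scheme.Hom.image_top_eq_opensRange, hV.opensRange_fromSpec]
  have hB_le : (⊤ : (Spec Γ(Y, V)).Opens) ≤ Spec.map (f.appLE U V h) ⁻¹ᵁ ⊤ := le_rfl
  have hB : IsBC ((Spec.map (f.appLE U V h)).appLE ⊤ ⊤ hB_le).hom
      (secMap (Spec.map (f.appLE U V h)) ((Scheme.Modules.pullback hU.fromSpec).obj M)
        hB_le).hom :=
    (unitSec_isBC_of_isIso_fromTildeΓ (f.appLE U V h)
      ((Scheme.Modules.pullback hU.fromSpec).obj M)).congr
      (fun r => by
        have : (Spec.map (f.appLE U V h)).appLE ⊤ ⊤ hB_le =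
            (Spec.map (f.appLE U V h)).app ⊤ := Scheme.Hom.appLE_eq_app _
        rw [this]; rfl)
      (fun n => (presheaf_map_self _ _ _).symm)
  -- semilinear bijections `A` and `D`
  have hAsl : IsSL (hU.fromSpec.appLE U ⊤ hA_le).hom (secMap hU.fromSpec M hA_le).hom :=
    fun r s => secMap_smul hU.fromSpec M hA_le r s
  have hAbij := secMap_bijective_of_isOpenImmersion hU.fromSpec M hA_le hA_ge
  have hαbij := appLE_bijective_of_isOpenImmersion hU.fromSpec hA_le hA_ge
  have hDsl : IsSL (hV.fromSpec.appLE V ⊤ hD_le).hom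
      (secMap hV.fromSpec ((Scheme.Modules.pullback f).obj M) hD_le).hom :=
    fun r s => secMap_smul hV.fromSpec _ hD_le r s
  have hDbij := secMap_bijective_of_isOpenImmersion hV.fromSpec
    ((Scheme.Modules.pullback f).obj M) hD_le hD_ge
  have hβbij := appLE_bijective_of_isOpenImmersion hV.fromSpec hD_le hD_ge
  -- the comparison isomorphism
  let Ψ : (Scheme.Modules.pullback (Spec.map (f.appLE U V h))).obj
        ((Scheme.Modules.pullback hU.fromSpec).obj M) ≅
      (Scheme.Modules.pullback hV.fromSpec).obj ((Scheme.Modules.pullback f).obj M) :=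
    (Scheme.Modules.pullbackComp _ _).app M ≪≫ (Scheme.Modules.pullbackCongr fac).app M ≪≫
      ((Scheme.Modules.pullbackComp _ _).app M).symm
  have hW₁ : (⊤ : (Spec Γ(Y, V)).Opens) ≤ (Spec.map (f.appLE U V h) ≫ hU.fromSpec) ⁻¹ᵁ U :=
    hB_le.trans ((Spec.map (f.appLE U V h)).preimage_mono hA_le)
  have hW₂ : (⊤ : (Spec Γ(Y, V)).Opens) ≤ (hV.fromSpec ≫ f) ⁻¹ᵁ U :=
    hD_le.trans (hV.fromSpec.preimage_mono h)
  have hsq : ∀ s : Γ(M, U),
      secMap (Spec.map (f.appLE U V h)) ((Scheme.Modules.pullback hU.fromSpec).obj M) hB_le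
        (secMap hU.fromSpec M hA_le s) =
      (Ψ.inv.app ⊤) (secMap hV.fromSpec ((Scheme.Modules.pullback f).obj M) hD_le
        (secMap f M h s)) := by
    intro s
    rw [secMap_comp_apply (Spec.map (f.appLE U V h)) hU.fromSpec M hA_le hB_le hW₁,
      secMap_comp_apply hV.fromSpec f M h hD_le hW₂,
      ← secMap_congr_apply fac M hW₁ hW₂]
    have key : ((Scheme.Modules.pullbackCongr fac).hom.app M ≫
        (Scheme.Modules.pullbackComp hV.fromSpec f).inv.app M) ≫ Ψ.inv =
        (Scheme.Modules.pullbackComp (Spec.map (f.appLE U V h)) hU.fromSpec).inv.app M := by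
      simp [Ψ]
    exact congr((Scheme.Modules.Hom.app $key ⊤) _).symm
  have hring : ∀ r : Γ(X, U),
      ((Spec.map (f.appLE U V h)).appLE ⊤ ⊤ hB_le).hom ((hU.fromSpec.appLE U ⊤ hA_le).hom r) =
      (hV.fromSpec.appLE V ⊤ hD_le).hom ((f.appLE U V h).hom r) := by
    intro r
    have h1 := Scheme.Hom.appLE_comp_appLE (Spec.map (f.appLE U V h)) hU.fromSpec U ⊤ ⊤
      hA_le hB_le
    have h2 := Scheme.Hom.appLE_comp_appLE hV.fromSpec f U V ⊤ h hD_le
    have h3 : ∀ {g g' : Spec Γ(Y, V) ⟶ X} (e : g = g') (a : ⊤ ≤ g ⁻¹ᵁ U) (b : ⊤ ≤ g' ⁻¹ᵁ U),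
        g.appLE U ⊤ a = g'.appLE U ⊤ b := by
      intro g g' e a b
      subst e
      rfl
    have h4 := h1.trans ((h3 fac _ _).trans h2.symm)
    exact congr($h4 r)
  exact IsBC.of_square' hB (fun r s => secMap_smul f M h r s) hAsl
    (b := (Ψ.inv.app ⊤).hom.comp (secMap hV.fromSpec ((Scheme.Modules.pullback f).obj M) hD_le).hom)
    (fun r s => by
      change (Ψ.inv.app ⊤) (secMap hV.fromSpec ((Scheme.Modules.pullback f).obj M) hD_le (r • s))
        = _
      rw [secMap_smul, Scheme.Modules.Hom.app_smul]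
      rfl)
    hαbij hβbij hAbij
    ((ConcreteCategory.bijective_of_isIso (Ψ.inv.app ⊤)).comp hDbij)
    hring hsq

end General

end Fermat.Agent.S25.H505
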