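/-
S25, block DICT (helper505): `dictBC : Stmt.DictBC Ch` — pullback of a rigidified line bundle
along `Spec A' → Spec A` corresponds to base change of gluing data.  Built on
`SectionBC.secMap_isBC` (sections of a pullback over affine opens are a base change),
`H566.boxRingEquiv` and `H205.Box`.
-/
import Fermat.Agent.S25.DefsDict
import Fermat.Agent.S25.H566.DictUnit
import Fermat.Agent.S25.H205.Box
import Fermat.Agent.S25.H505.SectionBC
import Fermat.Agent.S25.H505.InvertibleQCoh

set_option autoImplicit false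
universe u
open CategoryTheory CategoryTheory.Limits AlgebraicGeometry AlgebraicGeometry.RelPicard
  NeronModelInfra GoodReductionJacobian
open scoped TensorProduct

namespace Fermat.Agent.S25.H505

noncomputable section

/-! ### Link with `IsSemilinearBaseChange` -/

section Alg

variable {R R' : Type u} [CommRing R] [CommRing R'] (ρ : R →+* R')
  {N N' : Type u} [AddCommGroup N] [Module R N] [AddCommGroup N'] [Module R' N']

theorem isBC_of_isSemilinearBaseChange (b : N →ₛₗ[ρ] N') (h : IsSemilinearBaseChange ρ b) :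
    IsBC ρ b.toAddMonoidHom := by
  unfold IsSemilinearBaseChange at h
  letI : Algebra R R' := ρ.toAlgebra
  letI : Module R N' := Module.compHom N' ρ
  haveI : IsScalarTower R R' N' := ⟨fun r r' n => by
    change (ρ r * r') • n = ρ r • (r' • n); rw [mul_smul]⟩
  exact isBC_of_isBaseChange _ h

theorem isSemilinearBaseChange_of_isBC (b : N →ₛₗ[ρ] N') (h : IsBC ρ b.toAddMonoidHom) :
    IsSemilinearBaseChange ρ b := by
  unfold IsSemilinearBaseChange
  letI : Algebra R R' := ρ.toAlgebra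
  letI : Module R N' := Module.compHom N' ρ
  haveI : IsScalarTower R R' N' := ⟨fun r r' n => by
    change (ρ r * r') • n = ρ r • (r' • n); rw [mul_smul]⟩
  exact IsBC.isBaseChange _ h

end Alg


/-! ### Geometry of `baseChangeSnd` -/

section Geom

variable {k : Type u} [Field k] {C : Scheme.{u}} (c : C ⟶ Spec (CommRingCat.of k))
  {A A' : Type u} [CommRing A] [Algebra k A] [CommRing A'] [Algebra k A'] (φ : A →ₐ[k] A')

/-- the morphism `C_{A'} ⟶ C_A` -/
abbrev bcMap : pullback c (specStr k A') ⟶ pullback c (specStr k A) :=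
  baseChangeSnd c (specHomOver k φ)

theorem bcMap_fst : bcMap c φ ≫ pullback.fst c (specStr k A) = pullback.fst c (specStr k A') :=
  H205.baseChangeSnd_fst c _

theorem bcMap_snd : bcMap c φ ≫ pullback.snd c (specStr k A) =
    pullback.snd c (specStr k A') ≫ Spec.map (CommRingCat.ofHom φ.toRingHom) :=
  H205.baseChangeSnd_snd c _

theorem bcMap_preimage (U : C.Opens) :
    bcMap c φ ⁻¹ᵁ (preimageOpen (c := c) A U) = preimageOpen (c := c) A' U := by
  rw [preimageOpen, ← Scheme.Hom.comp_preimage, bcMap_fst]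

theorem le_bcMap_preimage (U : C.Opens) :
    preimageOpen (c := c) A' U ≤ bcMap c φ ⁻¹ᵁ (preimageOpen (c := c) A U) :=
  (bcMap_preimage c φ U).ge

theorem isAffineOpen_preimageOpen (A : Type u) [CommRing A] [Algebra k A] {U : C.Opens}
    (hU : IsAffineOpen U) : IsAffineOpen (preimageOpen (c := c) A U) := by
  exact H205.isAffineOpen_fst_preimage c (specStr k A) hU

/-- the ring map `Γ(C_A, U^A) → Γ(C_{A'}, U^{A'})` -/
abbrev bcRing (U : C.Opens) : Γ(pullback c (specStr k A), preimageOpen (c := c) A U) →+*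
    Γ(pullback c (specStr k A'), preimageOpen (c := c) A' U) :=
  ((bcMap c φ).appLE _ _ (le_bcMap_preimage c φ U)).hom

theorem bcRing_baseToSections (U : C.Opens) (a : A) :
    bcRing c φ U (baseToSections (c := c) A (preimageOpen (c := c) A U) a) =
      baseToSections (c := c) A' (preimageOpen (c := c) A' U) (φ a) := by
  have l1 : preimageOpen (c := c) A U ≤ (pullback.snd c (specStr k A)) ⁻¹ᵁ ⊤ := le_top
  have l2 : preimageOpen (c := c) A' U ≤ (pullback.snd c (specStr k A')) ⁻¹ᵁ ⊤ := le_top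
  have l3 : (⊤ : (Spec (CommRingCat.of A')).Opens) ≤
      (Spec.map (CommRingCat.ofHom φ.toRingHom)) ⁻¹ᵁ ⊤ := le_top
  have h1 : (pullback.snd c (specStr k A)).appLE ⊤ (preimageOpen (c := c) A U) l1 ≫
      (bcMap c φ).appLE _ _ (le_bcMap_preimage c φ U) =
      (Spec.map (CommRingCat.ofHom φ.toRingHom)).appLE ⊤ ⊤ l3 ≫
        (pullback.snd c (specStr k A')).appLE ⊤ (preimageOpen (c := c) A' U) l2 := by
    rw [Scheme.Hom.appLE_comp_appLE, Scheme.Hom.appLE_comp_appLE]
    exact H205.appLE_congr_hom (bcMap_snd c φ) _ _ _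
  have h2 : (Scheme.ΓSpecIso (CommRingCat.of A)).inv ≫
      (Spec.map (CommRingCat.ofHom φ.toRingHom)).appLE ⊤ ⊤ l3 =
      CommRingCat.ofHom φ.toRingHom ≫ (Scheme.ΓSpecIso (CommRingCat.of A')).inv := by
    rw [Scheme.ΓSpecIso_inv_naturality]
    rfl
  have h3 : ((Scheme.ΓSpecIso (CommRingCat.of A)).inv ≫
      (pullback.snd c (specStr k A)).appLE ⊤ (preimageOpen (c := c) A U) l1) ≫
      (bcMap c φ).appLE _ _ (le_bcMap_preimage c φ U) =
      CommRingCat.ofHom φ.toRingHom ≫ ((Scheme.ΓSpecIso (CommRingCat.of A')).inv ≫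
        (pullback.snd c (specStr k A')).appLE ⊤ (preimageOpen (c := c) A' U) l2) := by
    rw [Category.assoc, h1, reassoc_of% h2]
  exact congr($h3 a)

theorem bcRing_curveToSections (U : C.Opens) (g : Γ(C, U)) :
    bcRing c φ U (curveToSections (c := c) A U g) = curveToSections (c := c) A' U g := by
  have h1 : (pullback.fst c (specStr k A)).appLE U (preimageOpen (c := c) A U) le_rfl ≫
      (bcMap c φ).appLE _ _ (le_bcMap_preimage c φ U) =
      (pullback.fst c (specStr k A')).appLE U (preimageOpen (c := c) A' U) le_rfl := by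
    rw [Scheme.Hom.appLE_comp_appLE]
    exact H205.appLE_congr_hom (bcMap_fst c φ) _ _ _
  rw [H566.curveToSections_eq, H566.curveToSections_eq]
  exact congr($h1 g)

section Box

variable {U : C.Opens} (hU : IsAffineOpen U) {B : Type u} [CommRing B] [Algebra k B]
  (i : Γ(C, U) ≃+* B) (hi : ∀ a : k, i (sectionsStr c U a) = algebraMap k B a)

/-- the ring square `A ⊗ B → A' ⊗ B` versus `Γ(C_A, U^A) → Γ(C_{A'}, U^{A'})` -/
theorem bcRing_boxRingEquiv (x : A ⊗[k] B) :
    bcRing c φ U (H566.boxRingEquiv (A := A) hU i hi x) =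
      H566.boxRingEquiv (A := A') hU i hi (tensorMapLeft k φ B x) := by
  induction x using TensorProduct.induction_on with
  | zero => simp
  | add x y hx hy => simp only [map_add, hx, hy]
  | tmul a b =>
    have ht : tensorMapLeft k φ B (a ⊗ₜ[k] b) = φ a ⊗ₜ[k] b := by
      simp [tensorMapLeft]
    rw [ht, H566.boxRingEquiv_tmul, H566.boxRingEquiv_tmul, map_mul, bcRing_baseToSections,
      bcRing_curveToSections]

omit [Algebra k A'] in
/-- `IsSectionsIso` means semilinearity with respect to the inverse of `boxRingEquiv`. -/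
theorem isSL_of_isSectionsIso (L : (pullback c (specStr k A)).Modules) {N : Type u}
    [AddCommGroup N] [Module (A ⊗[k] B) N] (e : Γ(L, preimageOpen (c := c) A U) ≃+ N)
    (he : IsSectionsIso A L U i e) :
    IsSL (H566.boxRingEquiv (A := A) hU i hi).symm.toRingHom e.toAddMonoidHom := by
  intro r s
  obtain ⟨x, rfl⟩ := (H566.boxRingEquiv (A := A) hU i hi).surjective r
  change e (_ • s) = (H566.boxRingEquiv (A := A) hU i hi).symm _ • e s
  rw [RingEquiv.symm_apply_apply]
  induction x using TensorProduct.induction_on with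
  | zero => simp
  | add x y hx hy => simp only [map_add, add_smul, hx, hy]
  | tmul a b =>
    rw [H566.boxRingEquiv_tmul, mul_smul, he.1, he.2, RingEquiv.apply_symm_apply, ← mul_smul,
      Algebra.TensorProduct.tmul_mul_tmul, mul_one, one_mul]

omit [Algebra k A'] in
theorem isSectionsIso_of_isSL (L : (pullback c (specStr k A)).Modules) {N : Type u}
    [AddCommGroup N] [Module (A ⊗[k] B) N] (e : Γ(L, preimageOpen (c := c) A U) ≃+ N)
    (he : IsSL (H566.boxRingEquiv (A := A) hU i hi).symm.toRingHom e.toAddMonoidHom) :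
    IsSectionsIso A L U i e := by
  refine ⟨fun a s => ?_, fun f s => ?_⟩
  · have := he (baseToSections (c := c) A (preimageOpen (c := c) A U) a) s
    rw [← H566.boxRingEquiv_symm_baseToSections hU i hi]
    exact this
  · have := he (curveToSections (c := c) A U f) s
    rw [← H566.boxRingEquiv_symm_curveToSections hU i hi]
    exact this

include hU hi in
/-- **Chart-level base change**: sections of the pulled-back bundle over the preimage of an
affine chart are the base change of the sections of the original bundle. -/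
theorem exists_chart_equiv (L : (pullback c (specStr k A)).Modules) [L.IsQuasicoherent]
    {N N' : Type u} [AddCommGroup N] [Module (A ⊗[k] B) N] [AddCommGroup N']
    [Module (A' ⊗[k] B) N'] (e : Γ(L, preimageOpen (c := c) A U) ≃+ N)
    (he : IsSectionsIso A L U i e) (b : N →ₛₗ[tensorMapLeft k φ B] N')
    (hb : IsSemilinearBaseChange (tensorMapLeft k φ B) b) :
    ∃ e' : Γ((Scheme.Modules.pullback (bcMap c φ)).obj L, preimageOpen (c := c) A' U) ≃+ N',
      IsSectionsIso A' ((Scheme.Modules.pullback (bcMap c φ)).obj L) U i e' ∧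
      IsBC (bcRing c φ U) (secMap (bcMap c φ) L (le_bcMap_preimage c φ U)).hom ∧
      ∀ s, e' (secMap (bcMap c φ) L (le_bcMap_preimage c φ U) s) = b (e s) := by
  have hκ : IsBC (bcRing c φ U) (secMap (bcMap c φ) L (le_bcMap_preimage c φ U)).hom :=
    secMap_isBC (bcMap c φ) L (isAffineOpen_preimageOpen c A hU)
      (isAffineOpen_preimageOpen c A' hU) _
  have h₂ : IsBC ((tensorMapLeft k φ B).comp (H566.boxRingEquiv (A := A) hU i hi).symm.toRingHom)
      (b.toAddMonoidHom.comp e.toAddMonoidHom) :=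
    (isBC_of_bijective (isSL_of_isSectionsIso c hU i hi L e he)
      (H566.boxRingEquiv (A := A) hU i hi).symm.bijective e.bijective).comp
      (isBC_of_isSemilinearBaseChange _ b hb)
  obtain ⟨e', he', heg⟩ := hκ.exists_equiv (H566.boxRingEquiv (A := A') hU i hi).symm h₂
    (fun r => by
      have := bcRing_boxRingEquiv c φ hU i hi ((H566.boxRingEquiv (A := A) hU i hi).symm r)
      rw [RingEquiv.apply_symm_apply] at this
      rw [this, RingEquiv.symm_apply_apply]
      rfl)
  exact ⟨e', isSectionsIso_of_isSL c hU i hi _ e' he', hκ, heg⟩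

end Box

section Res

variable {U U' : C.Opens} (hU : IsAffineOpen U) (hU' : IsAffineOpen U') (hle : U' ≤ U)
  {B B' : Type u} [CommRing B] [Algebra k B] [CommRing B'] [Algebra k B']
  [Algebra B B'] [IsScalarTower k B B']
  (i : Γ(C, U) ≃+* B) (hi : ∀ a : k, i (sectionsStr c U a) = algebraMap k B a)
  (i' : Γ(C, U') ≃+* B') (hi' : ∀ a : k, i' (sectionsStr c U' a) = algebraMap k B' a)
  (hres : ∀ f : Γ(C, U), i' (resRing hle f) = algebraMap B B' (i f))

include hU hU' hi hi' hres in
/-- Compatibility of the chart-level base change with restriction to a smaller chart. -/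
theorem res_compat (L : (pullback c (specStr k A)).Modules)
    {N N₁ N' N₁' : Type u} [AddCommGroup N] [Module (A ⊗[k] B) N]
    [AddCommGroup N₁] [Module (A ⊗[k] B') N₁] [Module (A ⊗[k] B) N₁]
    [IsScalarTower (A ⊗[k] B) (A ⊗[k] B') N₁]
    [AddCommGroup N'] [Module (A' ⊗[k] B) N']
    [AddCommGroup N₁'] [Module (A' ⊗[k] B') N₁'] [Module (A' ⊗[k] B) N₁']
    [IsScalarTower (A' ⊗[k] B) (A' ⊗[k] B') N₁']
    (r : N →ₗ[A ⊗[k] B] N₁) (r' : N' →ₗ[A' ⊗[k] B] N₁')
    (e : Γ(L, preimageOpen (c := c) A U) ≃+ N) (e₁ : Γ(L, preimageOpen (c := c) A U') ≃+ N₁)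
    (her : ∀ s, e₁ (resMod L (show preimageOpen (c := c) A U' ≤ preimageOpen (c := c) A U from
      Scheme.Hom.preimage_mono _ hle) s) = r (e s))
    (b : N →ₛₗ[tensorMapLeft k φ B] N') (b₁ : N₁ →ₛₗ[tensorMapLeft k φ B'] N₁')
    (comm : ∀ s, b₁ (r s) = r' (b s))
    (e' : Γ((Scheme.Modules.pullback (bcMap c φ)).obj L, preimageOpen (c := c) A' U) ≃+ N')
    (e₁' : Γ((Scheme.Modules.pullback (bcMap c φ)).obj L, preimageOpen (c := c) A' U') ≃+ N₁')
    (he' : IsSectionsIso A' ((Scheme.Modules.pullback (bcMap c φ)).obj L) U i e')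
    (he₁' : IsSectionsIso A' ((Scheme.Modules.pullback (bcMap c φ)).obj L) U' i' e₁')
    (hκ : IsBC (bcRing c φ U) (secMap (bcMap c φ) L (le_bcMap_preimage c φ U)).hom)
    (heg : ∀ s, e' (secMap (bcMap c φ) L (le_bcMap_preimage c φ U) s) = b (e s))
    (heg₁ : ∀ s, e₁' (secMap (bcMap c φ) L (le_bcMap_preimage c φ U') s) = b₁ (e₁ s))
    (s' : Γ((Scheme.Modules.pullback (bcMap c φ)).obj L, preimageOpen (c := c) A' U)) :
    e₁' (resMod ((Scheme.Modules.pullback (bcMap c φ)).obj L)
      (show preimageOpen (c := c) A' U' ≤ preimageOpen (c := c) A' U from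
        Scheme.Hom.preimage_mono _ hle) s') = r' (e' s') := by
  have hle' : preimageOpen (c := c) A' U' ≤ preimageOpen (c := c) A' U :=
    Scheme.Hom.preimage_mono _ hle
  let σ : Γ(pullback c (specStr k A'), preimageOpen (c := c) A' U) →+* A' ⊗[k] B' :=
    (algebraMap (A' ⊗[k] B) (A' ⊗[k] B')).comp
      (H566.boxRingEquiv (A := A') hU i hi).symm.toRingHom
  have hσ : ∀ x, (H566.boxRingEquiv (A := A') hU' i' hi').symm (resRing hle' x) = σ x := by
    intro x
    have := H566.boxRingEquiv_res (A := A') hU hU' hle i hi i' hi' hres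
      ((H566.boxRingEquiv (A := A') hU i hi).symm x)
    rw [RingEquiv.apply_symm_apply] at this
    rw [this, RingEquiv.symm_apply_apply]
    rfl
  have hp : IsSL σ (e₁'.toAddMonoidHom.comp
      (resMod ((Scheme.Modules.pullback (bcMap c φ)).obj L) hle')) := by
    intro x s
    change e₁' (resMod _ hle' (x • s)) = σ x • e₁' (resMod _ hle' s)
    have h1 : resMod ((Scheme.Modules.pullback (bcMap c φ)).obj L) hle' (x • s) =
        resRing hle' x • resMod ((Scheme.Modules.pullback (bcMap c φ)).obj L) hle' s :=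
      Scheme.Modules.map_smul _ _ x s
    rw [h1, ← hσ]
    exact isSL_of_isSectionsIso c hU' i' hi' _ e₁' he₁' _ _
  have hq : IsSL σ (r'.toAddMonoidHom.comp e'.toAddMonoidHom) := by
    intro x s
    change r' (e' (x • s)) = σ x • r' (e' s)
    have h1 : e' (x • s) = (H566.boxRingEquiv (A := A') hU i hi).symm x • e' s :=
      isSL_of_isSectionsIso c hU i hi _ e' he' x s
    rw [h1, r'.map_smul]
    exact (algebraMap_smul (A' ⊗[k] B') _ _).symm
  have key := hκ.hom_ext hp hq (fun t => by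
    change e₁' (resMod _ hle' (secMap (bcMap c φ) L (le_bcMap_preimage c φ U) t)) =
      r' (e' (secMap (bcMap c φ) L (le_bcMap_preimage c φ U) t))
    rw [heg, ← comm, ← her, ← heg₁]
    congr 1
    exact (secMap_res_apply (bcMap c φ) L (le_bcMap_preimage c φ U)
      (le_bcMap_preimage c φ U') (Scheme.Hom.preimage_mono _ hle) hle' t).symm)
  exact DFunLike.congr_fun key s'

end Res

end Geom

/-! ### The statement `DictBC` -/

section Main

variable {k : Type u} [Field k] {C : Scheme.{u}} {c : C ⟶ Spec (CommRingCat.of k)}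
  {ε : SchemeHomOver (𝟙 (Spec (CommRingCat.of k))) c}

/-- **DICT-BC**: pullback along `Spec A' → Spec A` corresponds to base change of gluing data. -/
theorem dictBC (Ch : ChartOf c ε) : Stmt.DictBC Ch := by
  intro A A' _ _ _ _ φ M G G' hCorr hBC
  obtain ⟨e₀, e₁, e₀₁, h₀, h₁, h₀₁, hr₀, hr₁⟩ := hCorr
  obtain ⟨⟨b₀, b₁, b₀₁, comm₀, comm₁, hb₀, hb₁, hb₀₁⟩⟩ := hBC
  have : M.L.IsQuasicoherent := isQuasicoherent_of_isInvertible M.L M.isInvertible
  obtain ⟨e₀', h₀', hκ₀, heg₀⟩ :=
    exists_chart_equiv c φ Ch.isAffine₀ Ch.i₀ Ch.i₀_str M.L e₀ h₀ b₀ hb₀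
  obtain ⟨e₁', h₁', hκ₁, heg₁⟩ :=
    exists_chart_equiv c φ Ch.isAffine₁ Ch.i₁ Ch.i₁_str M.L e₁ h₁ b₁ hb₁
  obtain ⟨e₀₁', h₀₁', hκ₀₁, heg₀₁⟩ :=
    exists_chart_equiv c φ (H566.chart_isAffine₀₁ Ch) Ch.i₀₁ (H566.chart_i₀₁_str Ch) M.L
      e₀₁ h₀₁ b₀₁ hb₀₁
  refine ⟨e₀', e₁', e₀₁', h₀', h₁', h₀₁', fun s' => ?_, fun s' => ?_⟩
  · exact res_compat c φ Ch.isAffine₀ (H566.chart_isAffine₀₁ Ch) inf_le_left Ch.i₀ Ch.i₀_str
      Ch.i₀₁ (H566.chart_i₀₁_str Ch) Ch.i₀₁_res₀ M.L G.r₀ G'.r₀ e₀ e₀₁ hr₀ b₀ b₀₁ comm₀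
      e₀' e₀₁' h₀' h₀₁' hκ₀ heg₀ heg₀₁ s'
  · exact res_compat c φ Ch.isAffine₁ (H566.chart_isAffine₀₁ Ch) inf_le_right Ch.i₁ Ch.i₁_str
      Ch.i₀₁ (H566.chart_i₀₁_str Ch) Ch.i₀₁_res₁ M.L G.r₁ G'.r₁ e₁ e₀₁ hr₁ b₁ b₀₁ comm₁
      e₁' e₀₁' h₁' h₀₁' hκ₁ heg₁ heg₀₁ s'

end Main

end

end Fermat.Agent.S25.H505
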