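/-
S25, dictionary (helper505): invertibility is preserved by (semilinear) base change.
-/
import Mathlib.RingTheory.PicardGroup
import Fermat.Agent.S25.H505.SemilinearBC

universe u

namespace Fermat.Agent.S25.H505

variable {R R' : Type u} [CommRing R] [CommRing R']
  {N N' : Type u} [AddCommGroup N] [AddCommGroup N'] [Module R N] [Module R' N']

/-- invertibility is preserved by base change -/
theorem IsBC.invertible {ρ : R →+* R'} {g : N →+ N'} (h : IsBC ρ g) [Module.Invertible R N] :
    Module.Invertible R' N' := by
  let _ : Algebra R R' := ρ.toAlgebra
  let _ : Module R N' := Module.compHom N' ρ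
  have : IsScalarTower R R' N' := ⟨fun r r' n => by
    change (ρ r * r') • n = ρ r • (r' • n); rw [mul_smul]⟩
  have hb : IsBaseChange R' h.sl.toLinearMap := IsBC.isBaseChange _ h
  exact Module.Invertible.congr hb.equiv

/-- A module over `S`, viewed as a module over `R` along a ring isomorphism `τ : R ≃+* S`, is
a base change of itself along `τ.symm`. -/
theorem isBC_compHom {S : Type u} [CommRing S] (τ : R ≃+* S) {P : Type u} [AddCommGroup P]
    [Module S P] :
    letI : Module R P := Module.compHom P τ.toRingHom
    IsBC τ.symm.toRingHom (AddMonoidHom.id P) := by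
  letI : Module R P := Module.compHom P τ.toRingHom
  refine isBC_of_bijective (fun y s => ?_) τ.symm.bijective Function.bijective_id
  change y • s = τ (τ.symm y) • s
  rw [τ.apply_symm_apply]

end Fermat.Agent.S25.H505
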