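/-
S25, dictionary (helper505): packaging modules of sections into a `GlueDatum`.
-/
import Fermat.Agent.S25.DefsAlg
import Fermat.Agent.S25.H505.SemilinearInv

set_option autoImplicit false
universe u
open scoped TensorProduct

namespace Fermat.Agent.S25.H505

section Packaging

variable {A R₀ R₁ R₀₁ : Type u} [CommRing A] [CommRing R₀] [CommRing R₁]
    [CommRing R₀₁] [Algebra A R₀] [Algebra A R₁] [Algebra A R₀₁] [Algebra R₀ R₀₁]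
    [Algebra R₁ R₀₁] [IsScalarTower A R₀ R₀₁] [IsScalarTower A R₁ R₀₁]
  {S₀ S₁ S₀₁ : Type u} [CommRing S₀] [CommRing S₁] [CommRing S₀₁]
  (τ₀ : R₀ ≃+* S₀) (τ₁ : R₁ ≃+* S₁) (τ₀₁ : R₀₁ ≃+* S₀₁)
  (ρ₀ : S₀ →+* S₀₁) (ρ₁ : S₁ →+* S₀₁)
  (hρ₀ : ∀ x, ρ₀ (τ₀ x) = τ₀₁ (algebraMap R₀ R₀₁ x))
  (hρ₁ : ∀ x, ρ₁ (τ₁ x) = τ₀₁ (algebraMap R₁ R₀₁ x))
  {P₀ P₁ P₀₁ : Type u} [AddCommGroup P₀] [Module S₀ P₀] [AddCommGroup P₁] [Module S₁ P₁]
  [AddCommGroup P₀₁] [Module S₀₁ P₀₁]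
  (r₀ : P₀ →+ P₀₁) (r₁ : P₁ →+ P₀₁)

include hρ₀ hρ₁ in
/-- **Packaging**: modules of sections over rings isomorphic to `R₀, R₁, R₀₁`, with restriction
maps which are base changes, form a gluing datum. -/
theorem exists_glueDatum (h₀ : IsBC ρ₀ r₀) (h₁ : IsBC ρ₁ r₁)
    (i₀ : Module.Invertible S₀ P₀) (i₁ : Module.Invertible S₁ P₁) :
    ∃ (G : GlueDatum A R₀ R₁ R₀₁) (e₀ : P₀ ≃+ G.N₀) (e₁ : P₁ ≃+ G.N₁) (e₀₁ : P₀₁ ≃+ G.N₀₁),
      (∀ x s, e₀ (τ₀ x • s) = x • e₀ s) ∧ (∀ x s, e₁ (τ₁ x • s) = x • e₁ s) ∧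
      (∀ x s, e₀₁ (τ₀₁ x • s) = x • e₀₁ s) ∧
      (∀ s, e₀₁ (r₀ s) = G.r₀ (e₀ s)) ∧ (∀ s, e₀₁ (r₁ s) = G.r₁ (e₁ s)) := by
  letI m₀ : Module R₀ P₀ := Module.compHom P₀ τ₀.toRingHom
  letI m₁ : Module R₁ P₁ := Module.compHom P₁ τ₁.toRingHom
  letI m₀₁ : Module R₀₁ P₀₁ := Module.compHom P₀₁ τ₀₁.toRingHom
  letI mL : Module R₀ P₀₁ := Module.compHom P₀₁ (algebraMap R₀ R₀₁)
  letI mR : Module R₁ P₀₁ := Module.compHom P₀₁ (algebraMap R₁ R₀₁)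
  letI b₀ : Module A P₀ := Module.compHom P₀ (algebraMap A R₀)
  letI b₁ : Module A P₁ := Module.compHom P₁ (algebraMap A R₁)
  letI b₀₁ : Module A P₀₁ := Module.compHom P₀₁ (algebraMap A R₀₁)
  haveI tL : IsScalarTower R₀ R₀₁ P₀₁ := ⟨fun x y n => by
    rw [Algebra.smul_def, mul_smul]; rfl⟩
  haveI tR : IsScalarTower R₁ R₀₁ P₀₁ := ⟨fun x y n => by
    rw [Algebra.smul_def, mul_smul]; rfl⟩
  haveI t₀ : IsScalarTower A R₀ P₀ := ⟨fun x y n => by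
    rw [Algebra.smul_def, mul_smul]; rfl⟩
  haveI t₁ : IsScalarTower A R₁ P₁ := ⟨fun x y n => by
    rw [Algebra.smul_def, mul_smul]; rfl⟩
  haveI t₀₁ : IsScalarTower A R₀₁ P₀₁ := ⟨fun x y n => by
    rw [Algebra.smul_def, mul_smul]; rfl⟩
  have hsm₀ : ∀ (x : R₀) (s : P₀), x • s = τ₀ x • s := fun _ _ => rfl
  have hsm₁ : ∀ (x : R₁) (s : P₁), x • s = τ₁ x • s := fun _ _ => rfl
  have hsm₀₁ : ∀ (x : R₀₁) (s : P₀₁), x • s = τ₀₁ x • s := fun _ _ => rfl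
  have hsmL : ∀ (x : R₀) (s : P₀₁), x • s = algebraMap R₀ R₀₁ x • s := fun _ _ => rfl
  have hsmR : ∀ (x : R₁) (s : P₀₁), x • s = algebraMap R₁ R₀₁ x • s := fun _ _ => rfl
  let r₀' : P₀ →ₗ[R₀] P₀₁ :=
    { toFun := r₀, map_add' := r₀.map_add
      map_smul' := fun x s => by
        simp only [RingHom.id_apply]
        rw [hsm₀, h₀.sl, hρ₀, hsmL, hsm₀₁] }
  let r₁' : P₁ →ₗ[R₁] P₀₁ :=
    { toFun := r₁, map_add' := r₁.map_add
      map_smul' := fun x s => by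
        simp only [RingHom.id_apply]
        rw [hsm₁, h₁.sl, hρ₁, hsmR, hsm₀₁] }
  have hb₀ : IsBC (algebraMap R₀ R₀₁) r₀'.toAddMonoidHom :=
    IsBC.of_square' (α := τ₀.toRingHom) (β := τ₀₁.toRingHom) (a := AddMonoidHom.id P₀)
      (b := AddMonoidHom.id P₀₁) h₀ (fun x s => by
        change r₀ (x • s) = algebraMap R₀ R₀₁ x • r₀ s
        rw [hsm₀, h₀.sl, hρ₀, hsm₀₁])
      (fun x s => rfl) (fun x s => rfl) τ₀.bijective τ₀₁.bijective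
      Function.bijective_id Function.bijective_id (fun x => hρ₀ x) (fun s => rfl)
  have hb₁ : IsBC (algebraMap R₁ R₀₁) r₁'.toAddMonoidHom :=
    IsBC.of_square' (α := τ₁.toRingHom) (β := τ₀₁.toRingHom) (a := AddMonoidHom.id P₁)
      (b := AddMonoidHom.id P₀₁) h₁ (fun x s => by
        change r₁ (x • s) = algebraMap R₁ R₀₁ x • r₁ s
        rw [hsm₁, h₁.sl, hρ₁, hsm₀₁])
      (fun x s => rfl) (fun x s => rfl) τ₁.bijective τ₀₁.bijective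
      Function.bijective_id Function.bijective_id (fun x => hρ₁ x) (fun s => rfl)
  have inv₀ : Module.Invertible R₀ P₀ :=
    (isBC_compHom τ₀ (P := P₀)).invertible
  have inv₁ : Module.Invertible R₁ P₁ :=
    (isBC_compHom τ₁ (P := P₁)).invertible
  refine ⟨{ N₀ := P₀, N₁ := P₁, N₀₁ := P₀₁, r₀ := r₀', r₁ := r₁'
            isBaseChange₀ := IsBC.isBaseChange r₀' hb₀
            isBaseChange₁ := IsBC.isBaseChange r₁' hb₁
            invertible₀ := inv₀, invertible₁ := inv₁ },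
    AddEquiv.refl _, AddEquiv.refl _, AddEquiv.refl _, fun x s => rfl, fun x s => rfl,
    fun x s => rfl, fun s => rfl, fun s => rfl⟩

end Packaging

end Fermat.Agent.S25.H505
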