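/-
S25, block AFF (helper505): local-to-global criterion for `Module.Invertible`.  Mathlib only.
-/
import Mathlib.RingTheory.PicardGroup
import Mathlib.RingTheory.LocalProperties.Exactness
import Mathlib.RingTheory.LocalProperties.FinitePresentation
import Mathlib.RingTheory.Localization.BaseChange
import Mathlib.Algebra.Module.FinitePresentation

open TensorProduct

namespace Fermat.Agent.S25.H505

variable {R : Type*} [CommRing R]

section

variable (A : Type*) [CommRing A] [Algebra R A] (S : Submonoid R) [IsLocalization S A]

/-- the contraction `Hom_R(A, A) ⊗_R A → A` -/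
noncomputable def contractA : (A →ₗ[R] A) ⊗[R] A →ₗ[R] A :=
  TensorProduct.lift LinearMap.id

@[simp] theorem contractA_tmul (φ : A →ₗ[R] A) (a : A) : contractA (R := R) A (φ ⊗ₜ a) = φ a := rfl

include S in
theorem contractA_bijective : Function.Bijective (contractA (R := R) A) := by
  have hcompat : CompatibleSMul R A (A →ₗ[R] A) A := IsLocalization.tensorProduct_compatibleSMul S A _ _
  have hlin : ∀ (φ : A →ₗ[R] A) (a : A), φ a = a * φ 1 := by
    intro φ a
    have := (LinearMap.extendScalarsOfIsLocalization S A φ).map_smul a 1
    simpa using this
  refine ⟨?_, fun a => ⟨LinearMap.id ⊗ₜ a, rfl⟩⟩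
  have key : ∀ x : (A →ₗ[R] A) ⊗[R] A, x = LinearMap.id ⊗ₜ[R] (contractA (R := R) A x) := by
    intro x
    induction x using TensorProduct.induction_on with
    | zero => simp
    | tmul φ a =>
      have h1 : φ = (φ 1) • (LinearMap.id : A →ₗ[R] A) := by
        ext b
        simp [hlin φ b, mul_comm]
      rw [contractA_tmul]
      conv_lhs => rw [h1]
      rw [TensorProduct.smul_tmul, smul_eq_mul, hlin φ a, mul_comm]
    | add x y hx hy =>
      rw [map_add, tmul_add, ← hx, ← hy]
  intro x y hxy
  rw [key x, key y, hxy]

end

/-- **Local-to-global criterion for invertibility**: if `s` spans the unit ideal and for every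
`r ∈ s` the localization of `N` away from `r` is (isomorphic to) `R_r`, then `N` is an invertible
`R`-module. -/
theorem invertible_of_localizationSpan {N : Type*} [AddCommGroup N] [Module R N] (s : Set R)
    (hs : Ideal.span s = ⊤)
    (h : ∀ r : s, ∃ f : N →ₗ[R] Localization.Away r.1, IsLocalizedModule (.powers r.1) f) :
    Module.Invertible R N := by
  choose f hf using h
  have fp : Module.FinitePresentation R N :=
    Module.FinitePresentation.of_localizationSpan' s hs
      (Rₚ := fun r => Localization.Away r.1) f (fun r => inferInstance)
  refine ⟨bijective_of_isLocalized_span s hs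
    (fun r => (Localization.Away r.1 →ₗ[R] Localization.Away r.1) ⊗[R] Localization.Away r.1)
    (fun r => TensorProduct.map
      (IsLocalizedModule.map (.powers r.1) (f r) (Algebra.linearMap R (Localization.Away r.1)))
      (f r))
    (fun r => Localization.Away r.1) (fun r => Algebra.linearMap R (Localization.Away r.1))
    (contractLeft R N) fun r => ?_⟩
  have : IsLocalizedModule.map (.powers r.1)
      (TensorProduct.map
        (IsLocalizedModule.map (.powers r.1) (f r) (Algebra.linearMap R (Localization.Away r.1)))
        (f r))
      (Algebra.linearMap R (Localization.Away r.1)) (contractLeft R N) =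
      contractA (R := R) (Localization.Away r.1) := by
    apply IsLocalizedModule.linearMap_ext (.powers r.1)
      (TensorProduct.map
        (IsLocalizedModule.map (.powers r.1) (f r) (Algebra.linearMap R (Localization.Away r.1)))
        (f r)) (Algebra.linearMap R (Localization.Away r.1))
    rw [IsLocalizedModule.map_comp]
    ext φ n
    simp [IsLocalizedModule.map_apply]
  rw [this]
  exact contractA_bijective _ (.powers r.1)

end Fermat.Agent.S25.H505
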