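/-
S25, block AFF, leaf F1 (helper505): invertible sheaves on `Spec R` are exactly the sheaves
associated to invertible modules.
-/
import Fermat.Agent.S25.H505.TildePullback
import Fermat.Agent.S25.H505.InvertibleLocal
import Fermat.Agent.S25.H505.InvertibleQCoh

open CategoryTheory AlgebraicGeometry Opposite Limits TensorProduct

universe u

namespace Fermat.Agent.S25.H505

section Fac

variable {X Y Z : Scheme.{u}}

/-- pullback along a composite, with the composite given up to a propositional equality -/
noncomputable def pullbackFacIso {f : X ⟶ Y} {g : Y ⟶ Z} {h : X ⟶ Z} (fac : f ≫ g = h)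
    (M : Z.Modules) :
    (Scheme.Modules.pullback h).obj M ≅
      (Scheme.Modules.pullback f).obj ((Scheme.Modules.pullback g).obj M) :=
  ((Scheme.Modules.pullbackCongr fac).app M).symm ≪≫
    ((Scheme.Modules.pullbackComp f g).app M).symm

/-- a module which is trivial after pullback along `g` is trivial after pullback along `f ≫ g` -/
noncomputable def trivOfFac {f : X ⟶ Y} {g : Y ⟶ Z} {h : X ⟶ Z} (fac : f ≫ g = h)
    (M : Z.Modules)
    (e : (Scheme.Modules.pullback g).obj M ≅ SheafOfModules.unit Y.ringCatSheaf) :
    (Scheme.Modules.pullback h).obj M ≅ SheafOfModules.unit X.ringCatSheaf :=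
  pullbackFacIso fac M ≪≫ (Scheme.Modules.pullback f).mapIso e ≪≫
    Scheme.Modules.pullbackUnitIso f

end Fac

section Ext

variable {R A : Type u} [CommRing R] [CommRing A]

set_option backward.isDefEq.respectTransparency false in
/-- the object `(extendScalars φ).obj N` is `A ⊗[R] N` (for the algebra structure `φ.toAlgebra`) -/
noncomputable def extendScalarsObjEquiv (φ : R →+* A) (N : ModuleCat.{u} R) :
    letI := φ.toAlgebra
    ((ModuleCat.extendScalars φ).obj N) ≃ₗ[A] A ⊗[R] N :=
  letI := φ.toAlgebra
  LinearEquiv.refl A (A ⊗[R] N)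

/-- the object `(extendScalars φ).obj N` is `A ⊗[R] N`, for any algebra structure with
`algebraMap = φ`. -/
theorem nonempty_extendScalars_equiv_tensor (φ : R →+* A) [inst : Algebra R A]
    (h : algebraMap R A = φ) (N : ModuleCat.{u} R) :
    Nonempty (((ModuleCat.extendScalars φ).obj N) ≃ₗ[A] A ⊗[R] N) := by
  have : inst = φ.toAlgebra := Algebra.algebra_ext _ _ (fun r => by rw [h]; rfl)
  subst this
  exact ⟨extendScalarsObjEquiv φ N⟩

end Ext

section Affine

variable {R : CommRingCat.{u}}

/-- the localization map `R ⟶ R_r` in `CommRingCat` -/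
noncomputable abbrev awayMap (r : R) : R ⟶ CommRingCat.of (Localization.Away r) :=
  CommRingCat.ofHom (algebraMap R (Localization.Away r))

/-- If the base change of `N` to `R_r` is free of rank one, then `tilde N` is trivial on `D(r)`
(in the form: after pullback along `Spec R_r ⟶ Spec R`). -/
theorem nonempty_pullback_tilde_iso_unit (N : ModuleCat.{u} R) (r : R)
    (e : (Localization.Away r ⊗[R] N) ≃ₗ[Localization.Away r] Localization.Away r) :
    Nonempty ((Scheme.Modules.pullback (Spec.map (awayMap r))).obj (tilde N) ≅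
      SheafOfModules.unit (Spec (CommRingCat.of (Localization.Away r))).ringCatSheaf) := by
  obtain ⟨e'⟩ := nonempty_extendScalars_equiv_tensor (awayMap r).hom rfl N
  exact ⟨pullbackTildeIso (awayMap r) N ≪≫
    (tilde.functor _).mapIso (e' ≪≫ₗ e).toModuleIso ≪≫ tildeSelf⟩

/-- converse of `nonempty_pullback_tilde_iso_unit` -/
theorem nonempty_tensor_equiv_of_pullback_tilde_iso_unit (N : ModuleCat.{u} R) (r : R)
    (e : (Scheme.Modules.pullback (Spec.map (awayMap r))).obj (tilde N) ≅
      SheafOfModules.unit (Spec (CommRingCat.of (Localization.Away r))).ringCatSheaf) :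
    Nonempty ((Localization.Away r ⊗[R] N) ≃ₗ[Localization.Away r] Localization.Away r) := by
  obtain ⟨e'⟩ := nonempty_extendScalars_equiv_tensor (awayMap r).hom rfl N
  let i : (tilde.functor _).obj ((ModuleCat.extendScalars (awayMap r).hom).obj N) ≅
      (tilde.functor _).obj (ModuleCat.of (Localization.Away r) (Localization.Away r)) :=
    (pullbackTildeIso (awayMap r) N).symm ≪≫ e ≪≫ tildeSelf.symm
  exact ⟨e'.symm ≪≫ₗ (tilde.fullyFaithfulFunctor.preimageIso i).toLinearEquiv⟩

end Affine


section Main

variable {R : CommRingCat.{u}}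

/-- **F1 (converse direction)**: the sheaf associated to an invertible module is invertible. -/
theorem isInvertible_tilde (N : ModuleCat.{u} R) [Module.Invertible R N] :
    Scheme.Modules.IsInvertible (tilde N) := by
  obtain ⟨s, hs, hfree⟩ := Module.Invertible.exists_finset_free_localization R N
  refine ⟨fun x => ?_⟩
  obtain ⟨r, hrs, hrx⟩ : ∃ r ∈ s, r ∉ (x : PrimeSpectrum R).asIdeal := by
    by_contra hcon
    push Not at hcon
    have : Ideal.span (s : Set R) ≤ (x : PrimeSpectrum R).asIdeal :=
      Ideal.span_le.mpr (fun r hr => hcon r hr)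
    rw [hs] at this
    exact (x : PrimeSpectrum R).isPrime.ne_top (top_le_iff.mp this)
  have hfr := hfree r hrs
  obtain ⟨e1⟩ := Module.Invertible.free_iff_linearEquiv.mp hfr
  let e0 : Localization.Away r ⊗[R] N ≃ₗ[Localization.Away r] LocalizedModule.Away r N :=
    (IsLocalizedModule.isBaseChange (.powers r) (Localization.Away r)
      (LocalizedModule.mkLinearMap (.powers r) N)).equiv
  obtain ⟨t⟩ := nonempty_pullback_tilde_iso_unit N r (e0 ≪≫ₗ e1)
  refine ⟨(Spec.map (awayMap r)).opensRange, ?_,
    ⟨trivOfFac (Scheme.Hom.isoOpensRange_inv_comp _) (tilde N) t⟩⟩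
  rw [Scheme.Hom.opensRange_localizationAway]
  exact hrx

/-- **F1**: an invertible sheaf on `Spec R` is the sheaf associated to its global sections. -/
theorem isIso_fromTildeΓ_of_isInvertible (M : (Spec R).Modules)
    (hM : Scheme.Modules.IsInvertible M) : IsIso M.fromTildeΓ := by
  have := isQuasicoherent_of_isInvertible M hM
  exact Scheme.Modules.isIso_fromTildeΓ_of_isQuasicoherent M

/-- **F1**: an invertible sheaf on `Spec R` is the sheaf associated to its global sections. -/
noncomputable def tildeΓIsoOfIsInvertible (M : (Spec R).Modules)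
    (hM : Scheme.Modules.IsInvertible M) : tilde (moduleSpecΓFunctor.obj M) ≅ M :=
  @asIso _ _ _ _ M.fromTildeΓ (isIso_fromTildeΓ_of_isInvertible M hM)

/-- **F1**: the global sections of an invertible sheaf on `Spec R` form an invertible module. -/
theorem invertible_Γ_of_isInvertible (M : (Spec R).Modules)
    (hM : Scheme.Modules.IsInvertible M) :
    Module.Invertible R (moduleSpecΓFunctor.obj M) := by
  let N := moduleSpecΓFunctor.obj M
  let i : tilde N ≅ M := tildeΓIsoOfIsInvertible M hM
  refine invertible_of_localizationSpan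
    {r | Nonempty ((Localization.Away r ⊗[R] N) ≃ₗ[Localization.Away r] Localization.Away r)}
    ?_ ?_
  · by_contra hne
    obtain ⟨m, hm, hle⟩ := Ideal.exists_le_maximal _ hne
    let x : Spec R := (⟨m, hm.isPrime⟩ : PrimeSpectrum R)
    obtain ⟨U, hxU, ⟨t⟩⟩ := hM.exists_trivialization x
    obtain ⟨_, ⟨_, ⟨r, rfl⟩, rfl⟩, hxr, hrU⟩ :=
      PrimeSpectrum.isBasis_basic_opens.exists_subset_of_mem_open hxU U.2
    have hrange : Set.range (Spec.map (awayMap r)) ⊆ Set.range U.ι := by
      rw [Scheme.Opens.range_ι]
      refine subset_trans ?_ hrU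
      exact (PrimeSpectrum.localization_away_comap_range (Localization.Away r) r).le
    let f := IsOpenImmersion.lift U.ι (Spec.map (awayMap r)) hrange
    have fac : f ≫ U.ι = Spec.map (awayMap r) := IsOpenImmersion.lift_fac _ _ _
    have t' := trivOfFac fac M t
    obtain ⟨e⟩ := nonempty_tensor_equiv_of_pullback_tilde_iso_unit N r
      ((Scheme.Modules.pullback _).mapIso i ≪≫ t')
    exact hxr (hle (Ideal.subset_span ⟨e⟩))
  · rintro ⟨r, ⟨e⟩⟩
    exact ⟨(e.restrictScalars R).toLinearMap ∘ₗ TensorProduct.mk R (Localization.Away r) N 1,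
      IsLocalizedModule.of_linearEquiv (.powers r) _ (e.restrictScalars R)⟩

end Main

end Fermat.Agent.S25.H505
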