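/-
S25, dictionary (helper505): sections of quasi-coherent / invertible modules over affine opens:
restriction between affine opens is a base change (`resMod_isBC`), sections of an invertible
module over an affine open form an invertible module (`invertible_sections`).
-/
import Fermat.Agent.S25.H505.SectionBC
import Fermat.Agent.S25.H505.InvertibleSheaf
import Fermat.Agent.S25.H505.SemilinearInv

open CategoryTheory AlgebraicGeometry Opposite TopologicalSpace

universe u

namespace Fermat.Agent.S25.H505

variable {X : Scheme.{u}}

/-- the unit for the identity morphism -/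
theorem unitSec_id (M : X.Modules) (U : X.Opens) (s : Γ(M, U)) :
    ((Scheme.Modules.pullbackId X).hom.app M).app ((𝟙 X) ⁻¹ᵁ U) (unitSec (𝟙 X) M U s) = s := by
  have h1 := unit_conjugateEquiv (Adjunction.id (C := X.Modules))
    (Scheme.Modules.pullbackPushforwardAdjunction (𝟙 X)) (Scheme.Modules.pullbackId X).hom M
  rw [Scheme.Modules.conjugateEquiv_pullbackId_hom] at h1
  exact congr((Scheme.Modules.Hom.app $h1 U) s).symm

/-- **Restriction between affine opens is a base change** (for a quasi-coherent module). -/
theorem resMod_isBC (M : X.Modules) [M.IsQuasicoherent] {U V : X.Opens} (hU : IsAffineOpen U)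
    (hV : IsAffineOpen V) (h : V ≤ U) :
    IsBC (X.presheaf.map (homOfLE h).op).hom (M.presheaf.map (homOfLE h).op).hom := by
  have h' : V ≤ (𝟙 X) ⁻¹ᵁ U := h
  have h0 := secMap_isBC (𝟙 X) M hU hV h'
  refine h0.of_square (α := RingHom.id _) (β := RingHom.id _)
    (a := AddMonoidHom.id _) (b := (((Scheme.Modules.pullbackId X).hom.app M).app V).hom)
    (fun r s => Scheme.Modules.map_smul M (homOfLE h) r s)
    (fun r s => rfl)
    (fun r s => Scheme.Modules.Hom.app_smul _ r s)
    Function.bijective_id Function.bijective_id Function.bijective_id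
    (ConcreteCategory.bijective_of_isIso (((Scheme.Modules.pullbackId X).hom.app M).app V))
    (fun r => ?_) (fun s => ?_)
  · simp only [RingHom.id_apply]
    rfl
  · change M.presheaf.map (homOfLE h).op s =
      ((Scheme.Modules.pullbackId X).hom.app M).app V (secMap (𝟙 X) M h' s)
    rw [secMap_apply, hom_app_res, unitSec_id]
    rfl

/-- **Sections of an invertible module over an affine open form an invertible module.** -/
theorem invertible_sections (M : X.Modules) (hM : Scheme.Modules.IsInvertible M)
    {U : X.Opens} (hU : IsAffineOpen U) : Module.Invertible Γ(X, U) Γ(M, U) := by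
  have hF := hM.pullback hU.fromSpec
  have hinv := invertible_Γ_of_isInvertible _ hF
  have hle : (⊤ : (Spec Γ(X, U)).Opens) ≤ hU.fromSpec ⁻¹ᵁ U := by
    rw [hU.fromSpec_preimage_self]
  have hge : U ≤ hU.fromSpec ''ᵁ ⊤ := by
    rw [Scheme.Hom.image_top_eq_opensRange, hU.opensRange_fromSpec]
  have hbij := secMap_bijective_of_isOpenImmersion hU.fromSpec M hle hge
  have hring : ∀ r : Γ(X, U), (hU.fromSpec.appLE U ⊤ hle).hom r =
      ((Spec Γ(X, U)).presheaf.map (⊤ : (Spec Γ(X, U)).Opens).leTop.op)
        ((Scheme.ΓSpecIso Γ(X, U)).inv r) := by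
    intro r
    have h1 : hU.fromSpec.appLE U ⊤ hle = (Scheme.ΓSpecIso Γ(X, U)).inv ≫
        (Spec Γ(X, U)).presheaf.map (⊤ : (Spec Γ(X, U)).Opens).leTop.op := by
      rw [Scheme.Hom.appLE, hU.fromSpec_app_self, Category.assoc, ← Functor.map_comp]
      rfl
    exact congr($h1 r)
  let e : Γ(M, U) ≃ₗ[Γ(X, U)]
      (moduleSpecΓFunctor.obj ((Scheme.Modules.pullback hU.fromSpec).obj M)) :=
    { toFun := secMap hU.fromSpec M hle
      map_add' := (secMap hU.fromSpec M hle).hom.map_add
      map_smul' := fun r s => by
        simp only [RingHom.id_apply]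
        rw [secMap_smul, hring]
        rfl
      invFun := (Equiv.ofBijective _ hbij).symm
      left_inv := (Equiv.ofBijective _ hbij).left_inv
      right_inv := (Equiv.ofBijective _ hbij).right_inv }
  exact Module.Invertible.congr e.symm

end Fermat.Agent.S25.H505
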