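/-
S25, block DICT (helper505): `dictSections : Stmt.DictSections Ch` — every rigidified line
bundle on `C_A` has a (rigidifiable) gluing datum of sections.  Also `exists_corr` (any
invertible module has a gluing datum of sections) and `rigidifiable_of_corr`.
-/
import Fermat.Agent.S25.H505.DictBC
import Fermat.Agent.S25.H505.SectionsAffine
import Fermat.Agent.S25.H505.GlueDatumOfSections

set_option autoImplicit false
universe u
open CategoryTheory CategoryTheory.Limits AlgebraicGeometry AlgebraicGeometry.RelPicard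
  NeronModelInfra GoodReductionJacobian
open scoped TensorProduct

namespace Fermat.Agent.S25.H505

noncomputable section

variable {k : Type u} [Field k] {C : Scheme.{u}} {c : C ⟶ Spec (CommRingCat.of k)}
  {ε : SchemeHomOver (𝟙 (Spec (CommRingCat.of k))) c}

/-- **DICT-SEC, first half**: every invertible module on `C_A` has a gluing datum of
sections. -/
theorem exists_corr (Ch : ChartOf c ε) (A : Type u) [CommRing A] [Algebra k A]
    (L : (pullback c (specStr k A)).Modules) (hL : Scheme.Modules.IsInvertible L) :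
    ∃ G : CurveGD k Ch.B₀ Ch.B₁ Ch.B₀₁ A, Corr Ch A L G := by
  have : L.IsQuasicoherent := isQuasicoherent_of_isInvertible L hL
  have a₀ := isAffineOpen_preimageOpen c A Ch.isAffine₀
  have a₁ := isAffineOpen_preimageOpen c A Ch.isAffine₁
  have a₀₁ := isAffineOpen_preimageOpen c A (H566.chart_isAffine₀₁ Ch)
  have l₀ : preimageOpen (c := c) A (Ch.U₀ ⊓ Ch.U₁) ≤ preimageOpen (c := c) A Ch.U₀ :=
    Scheme.Hom.preimage_mono _ inf_le_left
  have l₁ : preimageOpen (c := c) A (Ch.U₀ ⊓ Ch.U₁) ≤ preimageOpen (c := c) A Ch.U₁ :=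
    Scheme.Hom.preimage_mono _ inf_le_right
  obtain ⟨G, e₀, e₁, e₀₁, h₀, h₁, h₀₁, hr₀, hr₁⟩ :=
    exists_glueDatum (A := A) (R₀ := A ⊗[k] Ch.B₀) (R₁ := A ⊗[k] Ch.B₁) (R₀₁ := A ⊗[k] Ch.B₀₁)
      (H566.boxRingEquiv (A := A) Ch.isAffine₀ Ch.i₀ Ch.i₀_str)
      (H566.boxRingEquiv (A := A) Ch.isAffine₁ Ch.i₁ Ch.i₁_str)
      (H566.boxRingEquiv (A := A) (H566.chart_isAffine₀₁ Ch) Ch.i₀₁ (H566.chart_i₀₁_str Ch))
      (resRing l₀) (resRing l₁)
      (fun x => H566.boxRingEquiv_res (A := A) Ch.isAffine₀ (H566.chart_isAffine₀₁ Ch)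
        inf_le_left Ch.i₀ Ch.i₀_str Ch.i₀₁ (H566.chart_i₀₁_str Ch) Ch.i₀₁_res₀ x)
      (fun x => H566.boxRingEquiv_res (A := A) Ch.isAffine₁ (H566.chart_isAffine₀₁ Ch)
        inf_le_right Ch.i₁ Ch.i₁_str Ch.i₀₁ (H566.chart_i₀₁_str Ch) Ch.i₀₁_res₁ x)
      (resMod L l₀) (resMod L l₁)
      (resMod_isBC L a₀ a₀₁ l₀) (resMod_isBC L a₁ a₀₁ l₁)
      (invertible_sections L hL a₀) (invertible_sections L hL a₁)
  refine ⟨G, e₀, e₁, e₀₁, ?_, ?_, ?_, hr₀, hr₁⟩
  · refine isSectionsIso_of_isSL c Ch.isAffine₀ Ch.i₀ Ch.i₀_str L e₀ (fun y s => ?_)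
    have := h₀ ((H566.boxRingEquiv (A := A) Ch.isAffine₀ Ch.i₀ Ch.i₀_str).symm y) s
    rwa [RingEquiv.apply_symm_apply] at this
  · refine isSectionsIso_of_isSL c Ch.isAffine₁ Ch.i₁ Ch.i₁_str L e₁ (fun y s => ?_)
    have := h₁ ((H566.boxRingEquiv (A := A) Ch.isAffine₁ Ch.i₁ Ch.i₁_str).symm y) s
    rwa [RingEquiv.apply_symm_apply] at this
  · refine isSectionsIso_of_isSL c (H566.chart_isAffine₀₁ Ch) Ch.i₀₁ (H566.chart_i₀₁_str Ch) L
      e₀₁ (fun y s => ?_)
    have := h₀₁ ((H566.boxRingEquiv (A := A) (H566.chart_isAffine₀₁ Ch) Ch.i₀₁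
      (H566.chart_i₀₁_str Ch)).symm y) s
    rwa [RingEquiv.apply_symm_apply] at this

/-! ### Rigidification -/

section Rig

variable (Ch : ChartOf c ε) (A : Type u) [CommRing A] [Algebra k A]

/-- the rigidifying section `Spec A ⟶ C_A` -/
abbrev rigMap : Spec (CommRingCat.of A) ⟶ pullback c (specStr k A) :=
  rigSection c (specStr k A) ε

theorem le_rigMap_preimage :
    (⊤ : (Spec (CommRingCat.of A)).Opens) ≤
      (rigMap (ε := ε) A) ⁻¹ᵁ (preimageOpen (c := c) A Ch.U₁) := by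
  rw [preimageOpen, ← Scheme.Hom.comp_preimage, H205.rigSection_fst, Scheme.Hom.comp_preimage,
    Ch.eps_mem]
  exact le_rfl

/-- the ring map `Γ(C_A, U₁^A) → Γ(Spec A, ⊤)` induced by the rigidifying section -/
abbrev rigRing : Γ(pullback c (specStr k A), preimageOpen (c := c) A Ch.U₁) →+*
    Γ(Spec (CommRingCat.of A), ⊤) :=
  ((rigMap (ε := ε) A).appLE _ _ (le_rigMap_preimage Ch A)).hom

theorem rigRing_baseToSections (a : A) :
    (Scheme.ΓSpecIso (CommRingCat.of A)).hom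
      (rigRing Ch A (baseToSections (c := c) A (preimageOpen (c := c) A Ch.U₁) a)) = a := by
  have l1 : preimageOpen (c := c) A Ch.U₁ ≤ (pullback.snd c (specStr k A)) ⁻¹ᵁ ⊤ := le_top
  have l2 : (⊤ : (Spec (CommRingCat.of A)).Opens) ≤
      (𝟙 (Spec (CommRingCat.of A))) ⁻¹ᵁ ⊤ := le_top
  have h1 : (pullback.snd c (specStr k A)).appLE ⊤ (preimageOpen (c := c) A Ch.U₁) l1 ≫
      (rigMap (ε := ε) A).appLE _ _ (le_rigMap_preimage Ch A) =
      Scheme.Hom.appLE (𝟙 (Spec (CommRingCat.of A))) ⊤ ⊤ l2 := by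
    rw [Scheme.Hom.appLE_comp_appLE]
    exact H205.appLE_congr_hom (H205.rigSection_snd c (specStr k A) ε) _ _ _
  have h2 : Scheme.Hom.appLE (𝟙 (Spec (CommRingCat.of A))) ⊤ ⊤ l2 = 𝟙 _ := by
    simp only [Scheme.Hom.appLE, Scheme.Hom.id_app]
    exact (Spec (CommRingCat.of A)).presheaf.map_id _
  have h3 : ((Scheme.ΓSpecIso (CommRingCat.of A)).inv ≫
      (pullback.snd c (specStr k A)).appLE ⊤ (preimageOpen (c := c) A Ch.U₁) l1) ≫
      (rigMap (ε := ε) A).appLE _ _ (le_rigMap_preimage Ch A) ≫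
      (Scheme.ΓSpecIso (CommRingCat.of A)).hom = 𝟙 _ := by
    rw [Category.assoc, reassoc_of% h1, h2, Category.id_comp, Iso.inv_hom_id]
  exact congr($h3 a)

theorem rigRing_curveToSections (g : Γ(C, Ch.U₁)) :
    (Scheme.ΓSpecIso (CommRingCat.of A)).hom
      (rigRing Ch A (curveToSections (c := c) A Ch.U₁ g)) =
      algebraMap k A (evalAt c ε Ch.U₁ Ch.eps_mem g) := by
  have l0 : (⊤ : (Spec (CommRingCat.of k)).Opens) ≤ ε.1 ⁻¹ᵁ Ch.U₁ := le_of_eq Ch.eps_mem.symm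
  have l1 : (⊤ : (Spec (CommRingCat.of A)).Opens) ≤ (specStr k A) ⁻¹ᵁ ⊤ := le_top
  have l2 : (⊤ : (Spec (CommRingCat.of A)).Opens) ≤ (specStr k A ≫ ε.1) ⁻¹ᵁ Ch.U₁ :=
    l1.trans ((specStr k A).preimage_mono l0)
  have h1 : (pullback.fst c (specStr k A)).appLE Ch.U₁ (preimageOpen (c := c) A Ch.U₁) le_rfl ≫
      (rigMap (ε := ε) A).appLE _ _ (le_rigMap_preimage Ch A) =
      (specStr k A ≫ ε.1).appLE Ch.U₁ ⊤ l2 := by
    rw [Scheme.Hom.appLE_comp_appLE]
    exact H205.appLE_congr_hom (H205.rigSection_fst c (specStr k A) ε) _ _ _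
  have h2 : (specStr k A ≫ ε.1).appLE Ch.U₁ ⊤ l2 =
      ε.1.appLE Ch.U₁ ⊤ l0 ≫ (specStr k A).appLE ⊤ ⊤ l1 := by
    rw [Scheme.Hom.appLE_comp_appLE]
  have h3 : (specStr k A).appLE ⊤ ⊤ l1 ≫ (Scheme.ΓSpecIso (CommRingCat.of A)).hom =
      (Scheme.ΓSpecIso (CommRingCat.of k)).hom ≫ CommRingCat.ofHom (algebraMap k A) := by
    have := Scheme.ΓSpecIso_naturality (CommRingCat.ofHom (algebraMap k A))
    rw [← this]
    rfl
  have h4 : (pullback.fst c (specStr k A)).appLE Ch.U₁ (preimageOpen (c := c) A Ch.U₁) le_rfl ≫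
      (rigMap (ε := ε) A).appLE _ _ (le_rigMap_preimage Ch A) ≫
      (Scheme.ΓSpecIso (CommRingCat.of A)).hom =
      (ε.1.appLE Ch.U₁ ⊤ l0 ≫ (Scheme.ΓSpecIso (CommRingCat.of k)).hom) ≫
        CommRingCat.ofHom (algebraMap k A) := by
    rw [reassoc_of% h1, h2, Category.assoc, h3, Category.assoc]
  rw [H566.curveToSections_eq]
  exact congr($h4 g)

/-- the ring square for the rigidifying section: it induces `epsHom` on `A ⊗ B₁`. -/
theorem rigRing_boxRingEquiv (x : A ⊗[k] Ch.B₁) :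
    (Scheme.ΓSpecIso (CommRingCat.of A)).hom
      (rigRing Ch A (H566.boxRingEquiv (A := A) Ch.isAffine₁ Ch.i₁ Ch.i₁_str x)) =
      epsHom Ch.e A x := by
  induction x using TensorProduct.induction_on with
  | zero => simp
  | add x y hx hy => simp only [map_add, hx, hy]
  | tmul a b =>
    rw [H566.boxRingEquiv_tmul, map_mul, map_mul, rigRing_baseToSections,
      rigRing_curveToSections, ← Ch.e_eq, RingEquiv.apply_symm_apply]
    simp [epsHom]

/-- **DICT-SEC, second half**: the gluing datum of sections of a rigidified line bundle is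
rigidifiable. -/
theorem rigidifiable_of_corr (M : RigidifiedLineBundle c ε (specStr k A))
    (G : CurveGD k Ch.B₀ Ch.B₁ Ch.B₀₁ A) (hG : Corr Ch A M.L G) : G.Rigidifiable Ch.e := by
  obtain ⟨e₀, e₁, e₀₁, h₀, h₁, h₀₁, hr₀, hr₁⟩ := hG
  have : M.L.IsQuasicoherent := isQuasicoherent_of_isInvertible M.L M.isInvertible
  have a₁ := isAffineOpen_preimageOpen c A Ch.isAffine₁
  obtain ⟨θ₀⟩ := M.rigidified
  let θ : (Scheme.Modules.pullback (rigMap (ε := ε) A)).obj M.L ≅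
      H566.unitModule (Spec (CommRingCat.of A)) := θ₀
  have hκ : IsBC (rigRing Ch A) (secMap (rigMap (ε := ε) A) M.L (le_rigMap_preimage Ch A)).hom :=
    secMap_isBC _ M.L a₁ (isAffineOpen_top _) _
  -- the map `Γ(σ^* L, ⊤) → A`
  let bmap : Γ((Scheme.Modules.pullback (rigMap (ε := ε) A)).obj M.L, ⊤) →+ A :=
    (Scheme.ΓSpecIso (CommRingCat.of A)).hom.hom.toAddMonoidHom.comp
      ((H566.unitSections (X := Spec (CommRingCat.of A)) ⊤).toAddMonoidHom.comp
        (θ.hom.app ⊤).hom)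
  have hbsl : IsSL (Scheme.ΓSpecIso (CommRingCat.of A)).hom.hom bmap := fun r s => by
    change (Scheme.ΓSpecIso (CommRingCat.of A)).hom
        (H566.unitSections (X := Spec (CommRingCat.of A)) ⊤ ((θ.hom.app ⊤) (r • s))) =
      (Scheme.ΓSpecIso (CommRingCat.of A)).hom r •
        (Scheme.ΓSpecIso (CommRingCat.of A)).hom
          (H566.unitSections (X := Spec (CommRingCat.of A)) ⊤ ((θ.hom.app ⊤) s))
    rw [Scheme.Modules.Hom.app_smul, H566.unitSections_smul, map_mul, smul_eq_mul]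
  have hbbij : Function.Bijective bmap :=
    (ConcreteCategory.bijective_of_isIso (Scheme.ΓSpecIso (CommRingCat.of A)).hom).comp
      ((H566.unitSections (X := Spec (CommRingCat.of A)) ⊤).bijective.comp
        (ConcreteCategory.bijective_of_isIso (θ.hom.app ⊤)))
  -- the semilinear map `G.N₁ → A`
  have hsl₁ := isSL_of_isSectionsIso c Ch.isAffine₁ Ch.i₁ Ch.i₁_str M.L e₁ h₁
  have hring : ∀ r, (epsHom Ch.e A).toRingHom
      ((H566.boxRingEquiv (A := A) Ch.isAffine₁ Ch.i₁ Ch.i₁_str).symm.toRingHom r) =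
      (Scheme.ΓSpecIso (CommRingCat.of A)).hom.hom (rigRing Ch A r) := fun r => by
    have := rigRing_boxRingEquiv Ch A
      ((H566.boxRingEquiv (A := A) Ch.isAffine₁ Ch.i₁ Ch.i₁_str).symm r)
    rw [RingEquiv.apply_symm_apply] at this
    exact this.symm
  let g₁ : G.N₁ →+ A := (bmap.comp
    (secMap (rigMap (ε := ε) A) M.L (le_rigMap_preimage Ch A)).hom).comp e₁.symm.toAddMonoidHom
  have hg₁ : ∀ s, g₁ (e₁ s) =
      bmap (secMap (rigMap (ε := ε) A) M.L (le_rigMap_preimage Ch A) s) := fun s => by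
    change bmap (secMap _ M.L _ (e₁.symm (e₁ s))) = _
    rw [e₁.symm_apply_apply]
  have hg₁sl : IsSL (epsHom Ch.e A).toRingHom g₁ := fun x n => by
    obtain ⟨s, rfl⟩ := e₁.surjective n
    obtain ⟨y, rfl⟩ := (H566.boxRingEquiv (A := A) Ch.isAffine₁ Ch.i₁ Ch.i₁_str).symm.surjective x
    have h1 : (H566.boxRingEquiv (A := A) Ch.isAffine₁ Ch.i₁ Ch.i₁_str).symm y • e₁ s =
        e₁ (y • s) := (hsl₁ y s).symm
    rw [h1, hg₁, hg₁, secMap_smul, hbsl]
    congr 1
    exact (hring y).symm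
  have hBC : IsBC (epsHom Ch.e A).toRingHom g₁ :=
    hκ.of_square hg₁sl hsl₁ hbsl
      (H566.boxRingEquiv (A := A) Ch.isAffine₁ Ch.i₁ Ch.i₁_str).symm.bijective
      (ConcreteCategory.bijective_of_isIso (Scheme.ΓSpecIso (CommRingCat.of A)).hom)
      e₁.bijective hbbij hring hg₁
  let b : G.N₁ →ₛₗ[(epsHom Ch.e A).toRingHom] A :=
    { toFun := g₁, map_add' := g₁.map_add, map_smul' := hg₁sl }
  exact ⟨b, isSemilinearBaseChange_of_isBC _ b hBC⟩

/-- **DICT-SEC**: every rigidified line bundle on `C_A` has a gluing datum of sections, and it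
is rigidifiable. -/
theorem dictSections : Stmt.DictSections Ch := by
  intro A _ _ M
  obtain ⟨G, hG⟩ := exists_corr Ch A M.L M.isInvertible
  exact ⟨G, hG, rigidifiable_of_corr Ch A M G hG⟩

end Rig

end

end Fermat.Agent.S25.H505
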