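/-
S25, block DICT-GLUE (helper505): two-chart gluing of modules as a fibre product
`P₀ ×_{P₀₁} P₁`: sections of the fibre product, and the criterion for the restriction of a
module along an open immersion to be isomorphic to a given module.
-/
import Fermat.Agent.S25.H326.Glue
import Fermat.Agent.S25.H505.SectionMap
import Fermat.Agent.S25.H206.InvertibleLocal

open CategoryTheory AlgebraicGeometry Opposite TopologicalSpace Limits

universe u

namespace Fermat.Agent.S25.H505

noncomputable section

variable {X : Scheme.{u}}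

section Pullback

variable {P₀ P₁ P₀₁ : X.Modules} (σ₀ : P₀ ⟶ P₀₁) (σ₁ : P₁ ⟶ P₀₁)

theorem isPullback_sections (W : X.Opens) :
    IsPullback ((H326.secFunctor W).map (pullback.fst σ₀ σ₁))
      ((H326.secFunctor W).map (pullback.snd σ₀ σ₁))
      ((H326.secFunctor W).map σ₀) ((H326.secFunctor W).map σ₁) := by
  have : PreservesLimitsOfSize.{0, 0} (H326.secFunctor (X := X) W) :=
    preservesLimitsOfSize_shrink.{0, u, 0, u} _
  exact (IsPullback.of_hasPullback σ₀ σ₁).map (H326.secFunctor W)

theorem pullback_sections_ext (W : X.Opens) (x y : Γ(pullback σ₀ σ₁, W))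
    (h₀ : (pullback.fst σ₀ σ₁).app W x = (pullback.fst σ₀ σ₁).app W y)
    (h₁ : (pullback.snd σ₀ σ₁).app W x = (pullback.snd σ₀ σ₁).app W y) : x = y :=
  Limits.Types.ext_of_isPullback (isPullback_sections σ₀ σ₁ W) h₀ h₁

theorem pullback_sections_exists (W : X.Opens) (s₀ : Γ(P₀, W)) (s₁ : Γ(P₁, W))
    (h : σ₀.app W s₀ = σ₁.app W s₁) :
    ∃ x : Γ(pullback σ₀ σ₁, W),
      (pullback.fst σ₀ σ₁).app W x = s₀ ∧ (pullback.snd σ₀ σ₁).app W x = s₁ :=
  Limits.Types.exists_of_isPullback (isPullback_sections σ₀ σ₁ W) s₀ s₁ h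

theorem pullback_condition_apply (W : X.Opens) (x : Γ(pullback σ₀ σ₁, W)) :
    σ₀.app W ((pullback.fst σ₀ σ₁).app W x) = σ₁.app W ((pullback.snd σ₀ σ₁).app W x) := by
  have h := pullback.condition (f := σ₀) (g := σ₁)
  exact congr((Scheme.Modules.Hom.app $h W) x)

theorem pullback_fst_app_bijective (W : X.Opens) (h : Function.Bijective (σ₁.app W)) :
    Function.Bijective ((pullback.fst σ₀ σ₁).app W) := by
  refine ⟨fun x y hxy => pullback_sections_ext σ₀ σ₁ W x y hxy (h.1 ?_), fun s₀ => ?_⟩
  · rw [← pullback_condition_apply, ← pullback_condition_apply, hxy]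
  · obtain ⟨s₁, hs₁⟩ := h.2 (σ₀.app W s₀)
    obtain ⟨x, hx, -⟩ := pullback_sections_exists σ₀ σ₁ W s₀ s₁ hs₁.symm
    exact ⟨x, hx⟩

theorem pullback_snd_app_bijective (W : X.Opens) (h : Function.Bijective (σ₀.app W)) :
    Function.Bijective ((pullback.snd σ₀ σ₁).app W) := by
  refine ⟨fun x y hxy => pullback_sections_ext σ₀ σ₁ W x y (h.1 ?_) hxy, fun s₁ => ?_⟩
  · rw [pullback_condition_apply, pullback_condition_apply, hxy]
  · obtain ⟨s₀, hs₀⟩ := h.2 (σ₁.app W s₁)
    obtain ⟨x, -, hx⟩ := pullback_sections_exists σ₀ σ₁ W s₀ s₁ hs₀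
    exact ⟨x, hx⟩

end Pullback

section Restrict

variable {Y : Scheme.{u}} (j : Y ⟶ X) [IsOpenImmersion j] {L : X.Modules} {T : Y.Modules}
  (p : L ⟶ (Scheme.Modules.pushforward j).obj T)

/-- If `p : L ⟶ j_* T` is bijective on sections over the opens contained in the range of the
open immersion `j`, then its adjoint `L|_Y ⟶ T` is an isomorphism. -/
theorem isIso_restrict_of_bijective (hp : ∀ U : Y.Opens, Function.Bijective (p.app (j ''ᵁ U))) :
    IsIso ((Scheme.Modules.restrictFunctor j).map p ≫
      (Scheme.Modules.restrictAdjunction j).counit.app T) := by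
  rw [Scheme.Modules.Hom.isIso_iff_isIso_app]
  intro U
  rw [Scheme.Modules.Hom.comp_app]
  have h1 : IsIso (((Scheme.Modules.restrictFunctor j).map p).app U) := by
    rw [ConcreteCategory.isIso_iff_bijective]
    exact hp U
  infer_instance

theorem nonempty_pullback_iso_of_bijective
    (hp : ∀ U : Y.Opens, Function.Bijective (p.app (j ''ᵁ U))) :
    Nonempty ((Scheme.Modules.pullback j).obj L ≅ T) := by
  have := isIso_restrict_of_bijective j p hp
  exact ⟨(Scheme.Modules.restrictFunctorIsoPullback j).symm.app L ≪≫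
    asIso ((Scheme.Modules.restrictFunctor j).map p ≫
      (Scheme.Modules.restrictAdjunction j).counit.app T)⟩

end Restrict

/-- Invertibility is local, pointwise form with arbitrary open immersions. -/
theorem isInvertible_of_forall_exists (M : X.Modules)
    (h : ∀ x : X, ∃ (U : Scheme.{u}) (j : U ⟶ X) (_ : IsOpenImmersion j),
      x ∈ Set.range j ∧ Scheme.Modules.IsInvertible ((Scheme.Modules.pullback j).obj M)) :
    Scheme.Modules.IsInvertible M := by
  choose U j hj hx hM using h
  exact H206.isInvertible_of_openImmersion_cover M U j (fun x => ⟨x, hx x⟩) hM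

end

end Fermat.Agent.S25.H505
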