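/-
S25, block DICT-GLUE (helper505): **gluing on two affine charts**.  Modules `N₀`, `N₁`, `N₀₁`
over the rings of functions of affine opens `V₀`, `V₁`, `V₀₁ = V₀ ⊓ V₁` covering `X`, with
restriction maps `N₀ → N₀₁ ← N₁` which are base changes, are the modules of sections of an
invertible module `L` on `X` (`exists_glue_core`, `exists_glue_affine`).  `L` is the fibre
product of the pushforwards of the `tilde N_i`.
-/
import Fermat.Agent.S25.H505.AffPush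
import Fermat.Agent.S25.H505.GlueTwo
import Fermat.Agent.S25.H505.InvertibleSheaf
import Fermat.Agent.S25.H505.SemilinearInv

open CategoryTheory AlgebraicGeometry Opposite TopologicalSpace Limits

universe u

namespace Fermat.Agent.S25.H505

noncomputable section

variable {X : Scheme.{u}}


section Core

variable {V₀ V₁ V₀₁ : X.Opens} (a₀ : IsAffineOpen V₀) (a₁ : IsAffineOpen V₁)
  (a₀₁ : IsAffineOpen V₀₁) (l₀ : V₀₁ ≤ V₀) (l₁ : V₀₁ ≤ V₁) (hinf : V₀ ⊓ V₁ ≤ V₀₁)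
  (hcov : V₀ ⊔ V₁ = ⊤)
  (N₀ : ModuleCat.{u} Γ(X, V₀)) (N₁ : ModuleCat.{u} Γ(X, V₁)) (N₀₁ : ModuleCat.{u} Γ(X, V₀₁))
  (r₀ : N₀ →+ N₀₁) (r₁ : N₁ →+ N₀₁)
  (hr₀ : IsBC (resCat l₀).hom r₀) (hr₁ : IsBC (resCat l₁).hom r₁)

include a₀ a₁ a₀₁ hinf hcov hr₀ hr₁ in
/-- **Gluing on two affine charts** (core form, modules over the rings of sections). -/
theorem exists_glue_core [Module.Invertible Γ(X, V₀) N₀] [Module.Invertible Γ(X, V₁) N₁] :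
    ∃ (L : X.Modules) (_ : Scheme.Modules.IsInvertible L) (e₀ : Γ(L, V₀) ≃+ N₀)
      (e₁ : Γ(L, V₁) ≃+ N₁) (e₀₁ : Γ(L, V₀₁) ≃+ N₀₁),
      (∀ (x : Γ(X, V₀)) (s : Γ(L, V₀)), e₀ (x • s) = x • e₀ s) ∧
      (∀ (x : Γ(X, V₁)) (s : Γ(L, V₁)), e₁ (x • s) = x • e₁ s) ∧
      (∀ (x : Γ(X, V₀₁)) (s : Γ(L, V₀₁)), e₀₁ (x • s) = x • e₀₁ s) ∧
      (∀ s, e₀₁ (L.presheaf.map (homOfLE l₀).op s) = r₀ (e₀ s)) ∧
      (∀ s, e₀₁ (L.presheaf.map (homOfLE l₁).op s) = r₁ (e₁ s)) := by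
  obtain ⟨ε₀, hε₀⟩ := exists_extendScalars_iso l₀ r₀ hr₀
  obtain ⟨ε₁, hε₁⟩ := exists_extendScalars_iso l₁ r₁ hr₁
  let σ₀ : affPush a₀ N₀ ⟶ affPush a₀₁ N₀₁ := affTrans a₀ a₀₁ l₀ ε₀
  let σ₁ : affPush a₁ N₁ ⟶ affPush a₀₁ N₀₁ := affTrans a₁ a₀₁ l₁ ε₁
  have hσ₀ : ∀ W : X.Opens, W ≤ V₁ → Function.Bijective (σ₀.app W) := fun W hW =>
    affTrans_app_bijective a₀ a₀₁ l₀ ε₀ W
      ((inf_le_inf_right V₀ hW).trans (by rw [inf_comm]; exact hinf))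
  have hσ₁ : ∀ W : X.Opens, W ≤ V₀ → Function.Bijective (σ₁.app W) := fun W hW =>
    affTrans_app_bijective a₁ a₀₁ l₁ ε₁ W ((inf_le_inf_right V₁ hW).trans hinf)
  let L : X.Modules := pullback σ₀ σ₁
  let p₀ : L ⟶ affPush a₀ N₀ := pullback.fst σ₀ σ₁
  let p₁ : L ⟶ affPush a₁ N₁ := pullback.snd σ₀ σ₁
  have hp₀ : ∀ W : X.Opens, W ≤ V₀ → Function.Bijective (p₀.app W) := fun W hW =>
    pullback_fst_app_bijective σ₀ σ₁ W (hσ₁ W hW)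
  have hp₁ : ∀ W : X.Opens, W ≤ V₁ → Function.Bijective (p₁.app W) := fun W hW =>
    pullback_snd_app_bijective σ₀ σ₁ W (hσ₀ W hW)
  have hcond : ∀ (W : X.Opens) (s : Γ(L, W)), σ₀.app W (p₀.app W s) = σ₁.app W (p₁.app W s) :=
    fun W s => pullback_condition_apply σ₀ σ₁ W s
  -- invertibility
  have hL : Scheme.Modules.IsInvertible L := by
    refine isInvertible_of_forall_exists L (fun x => ?_)
    have hx : x ∈ V₀ ⊔ V₁ := by rw [hcov]; trivial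
    rcases hx with hx | hx
    · refine ⟨Spec Γ(X, V₀), a₀.fromSpec, inferInstance, ?_, ?_⟩
      · rw [a₀.range_fromSpec]; exact hx
      · obtain ⟨i⟩ := nonempty_pullback_iso_of_bijective a₀.fromSpec (T := tilde N₀) p₀
          (fun U => hp₀ _ (by
            have := a₀.fromSpec.image_le_opensRange U
            rwa [a₀.opensRange_fromSpec] at this))
        exact H206.isInvertible_of_iso i.symm (isInvertible_tilde N₀)
    · refine ⟨Spec Γ(X, V₁), a₁.fromSpec, inferInstance, ?_, ?_⟩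
      · rw [a₁.range_fromSpec]; exact hx
      · obtain ⟨i⟩ := nonempty_pullback_iso_of_bijective a₁.fromSpec (T := tilde N₁) p₁
          (fun U => hp₁ _ (by
            have := a₁.fromSpec.image_le_opensRange U
            rwa [a₁.opensRange_fromSpec] at this))
        exact H206.isInvertible_of_iso i.symm (isInvertible_tilde N₁)
  -- the identifications of sections
  let t₀ : N₀ ≃+ Γ(affPush a₀ N₀, V₀) :=
    AddEquiv.ofBijective (affPushTop a₀ N₀) (affPushTop_bijective a₀ N₀)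
  let t₁ : N₁ ≃+ Γ(affPush a₁ N₁, V₁) :=
    AddEquiv.ofBijective (affPushTop a₁ N₁) (affPushTop_bijective a₁ N₁)
  let t₀₁ : N₀₁ ≃+ Γ(affPush a₀₁ N₀₁, V₀₁) :=
    AddEquiv.ofBijective (affPushTop a₀₁ N₀₁) (affPushTop_bijective a₀₁ N₀₁)
  let q₀ : Γ(L, V₀) ≃+ Γ(affPush a₀ N₀, V₀) :=
    AddEquiv.ofBijective (p₀.app V₀).hom (hp₀ V₀ le_rfl)
  let q₁ : Γ(L, V₁) ≃+ Γ(affPush a₁ N₁, V₁) :=
    AddEquiv.ofBijective (p₁.app V₁).hom (hp₁ V₁ le_rfl)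
  let q₀₁ : Γ(L, V₀₁) ≃+ Γ(affPush a₀₁ N₀₁, V₀₁) :=
    AddEquiv.ofBijective ((σ₀.app V₀₁).hom.comp (p₀.app V₀₁).hom)
      ((hσ₀ V₀₁ l₁).comp (hp₀ V₀₁ l₀))
  have ht₀ : ∀ n, t₀ n = affPushTop a₀ N₀ n := fun _ => rfl
  have ht₁ : ∀ n, t₁ n = affPushTop a₁ N₁ n := fun _ => rfl
  have ht₀₁ : ∀ n, t₀₁ n = affPushTop a₀₁ N₀₁ n := fun _ => rfl
  have hq₀ : ∀ s, q₀ s = p₀.app V₀ s := fun _ => rfl
  have hq₁ : ∀ s, q₁ s = p₁.app V₁ s := fun _ => rfl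
  have hq₀₁ : ∀ s, q₀₁ s = σ₀.app V₀₁ (p₀.app V₀₁ s) := fun _ => rfl
  refine ⟨L, hL, q₀.trans t₀.symm, q₁.trans t₁.symm, q₀₁.trans t₀₁.symm, ?_, ?_, ?_, ?_, ?_⟩
  · intro x s
    apply t₀.injective
    simp only [AddEquiv.trans_apply, AddEquiv.apply_symm_apply]
    rw [ht₀, affPushTop_smul, ← ht₀, AddEquiv.apply_symm_apply, hq₀, hq₀,
      Scheme.Modules.Hom.app_smul]
  · intro x s
    apply t₁.injective
    simp only [AddEquiv.trans_apply, AddEquiv.apply_symm_apply]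
    rw [ht₁, affPushTop_smul, ← ht₁, AddEquiv.apply_symm_apply, hq₁, hq₁,
      Scheme.Modules.Hom.app_smul]
  · intro x s
    apply t₀₁.injective
    simp only [AddEquiv.trans_apply, AddEquiv.apply_symm_apply]
    rw [ht₀₁, affPushTop_smul, ← ht₀₁, AddEquiv.apply_symm_apply, hq₀₁, hq₀₁,
      Scheme.Modules.Hom.app_smul, Scheme.Modules.Hom.app_smul]
  · intro s
    apply t₀₁.injective
    simp only [AddEquiv.trans_apply, AddEquiv.apply_symm_apply]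
    rw [hq₀₁, hom_app_res, ht₀₁, ← affTrans_affPushTop a₀ a₀₁ l₀ ε₀ r₀ hε₀, ← ht₀,
      AddEquiv.apply_symm_apply, hq₀]
  · intro s
    apply t₀₁.injective
    simp only [AddEquiv.trans_apply, AddEquiv.apply_symm_apply]
    rw [hq₀₁, hcond, hom_app_res, ht₀₁, ← affTrans_affPushTop a₁ a₀₁ l₁ ε₁ r₁ hε₁, ← ht₁,
      AddEquiv.apply_symm_apply, hq₁]

end Core

section Semilinear

variable {V₀ V₁ V₀₁ : X.Opens} (a₀ : IsAffineOpen V₀) (a₁ : IsAffineOpen V₁)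
  (a₀₁ : IsAffineOpen V₀₁) (l₀ : V₀₁ ≤ V₀) (l₁ : V₀₁ ≤ V₁) (hinf : V₀ ⊓ V₁ ≤ V₀₁)
  (hcov : V₀ ⊔ V₁ = ⊤)
  {R₀ R₁ R₀₁ : Type u} [CommRing R₀] [CommRing R₁] [CommRing R₀₁]
  (τ₀ : R₀ ≃+* Γ(X, V₀)) (τ₁ : R₁ ≃+* Γ(X, V₁)) (τ₀₁ : R₀₁ ≃+* Γ(X, V₀₁))
  (ρ₀ : R₀ →+* R₀₁) (ρ₁ : R₁ →+* R₀₁)
  (hρ₀ : ∀ x, (resCat l₀).hom (τ₀ x) = τ₀₁ (ρ₀ x))
  (hρ₁ : ∀ x, (resCat l₁).hom (τ₁ x) = τ₀₁ (ρ₁ x))
  {N₀ N₁ N₀₁ : Type u} [AddCommGroup N₀] [Module R₀ N₀] [AddCommGroup N₁] [Module R₁ N₁]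
  [AddCommGroup N₀₁] [Module R₀₁ N₀₁]
  (r₀ : N₀ →+ N₀₁) (r₁ : N₁ →+ N₀₁)

include a₀ a₁ a₀₁ hinf hcov hρ₀ hρ₁ in
/-- **Gluing on two affine charts**: modules `N₀`, `N₁`, `N₀₁` over rings identified with the
rings of functions of affine opens `V₀`, `V₁`, `V₀₁ = V₀ ⊓ V₁` covering `X`, with restriction
maps which are base changes, are the modules of sections of an invertible module on `X`. -/
theorem exists_glue_affine (h₀ : IsBC ρ₀ r₀) (h₁ : IsBC ρ₁ r₁)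
    (i₀ : Module.Invertible R₀ N₀) (i₁ : Module.Invertible R₁ N₁) :
    ∃ (L : X.Modules) (_ : Scheme.Modules.IsInvertible L) (e₀ : Γ(L, V₀) ≃+ N₀)
      (e₁ : Γ(L, V₁) ≃+ N₁) (e₀₁ : Γ(L, V₀₁) ≃+ N₀₁),
      (∀ (y : R₀) (s : Γ(L, V₀)), e₀ (τ₀ y • s) = y • e₀ s) ∧
      (∀ (y : R₁) (s : Γ(L, V₁)), e₁ (τ₁ y • s) = y • e₁ s) ∧
      (∀ (y : R₀₁) (s : Γ(L, V₀₁)), e₀₁ (τ₀₁ y • s) = y • e₀₁ s) ∧
      (∀ s, e₀₁ (L.presheaf.map (homOfLE l₀).op s) = r₀ (e₀ s)) ∧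
      (∀ s, e₀₁ (L.presheaf.map (homOfLE l₁).op s) = r₁ (e₁ s)) := by
  let m₀ : Module Γ(X, V₀) N₀ := Module.compHom N₀ τ₀.symm.toRingHom
  let m₁ : Module Γ(X, V₁) N₁ := Module.compHom N₁ τ₁.symm.toRingHom
  let m₀₁ : Module Γ(X, V₀₁) N₀₁ := Module.compHom N₀₁ τ₀₁.symm.toRingHom
  have hsm₀ : ∀ (x : Γ(X, V₀)) (s : N₀), x • s = τ₀.symm x • s := fun _ _ => rfl
  have hsm₁ : ∀ (x : Γ(X, V₁)) (s : N₁), x • s = τ₁.symm x • s := fun _ _ => rfl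
  have hsm₀₁ : ∀ (x : Γ(X, V₀₁)) (s : N₀₁), x • s = τ₀₁.symm x • s := fun _ _ => rfl
  have hb₀ : IsBC (resCat l₀).hom r₀ :=
    IsBC.of_square (α := τ₀.toRingHom) (β := τ₀₁.toRingHom) (a := AddMonoidHom.id N₀)
      (b := AddMonoidHom.id N₀₁) h₀ (fun x s => by
        obtain ⟨y, rfl⟩ := τ₀.surjective x
        rw [hsm₀, τ₀.symm_apply_apply, h₀.sl, hρ₀, hsm₀₁, τ₀₁.symm_apply_apply])
      (fun x s => by
        change x • s = τ₀.symm (τ₀ x) • s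
        rw [τ₀.symm_apply_apply])
      (fun x s => by
        change x • s = τ₀₁.symm (τ₀₁ x) • s
        rw [τ₀₁.symm_apply_apply])
      τ₀.bijective τ₀₁.bijective
      Function.bijective_id Function.bijective_id (fun x => hρ₀ x) (fun s => rfl)
  have hb₁ : IsBC (resCat l₁).hom r₁ :=
    IsBC.of_square (α := τ₁.toRingHom) (β := τ₀₁.toRingHom) (a := AddMonoidHom.id N₁)
      (b := AddMonoidHom.id N₀₁) h₁ (fun x s => by
        obtain ⟨y, rfl⟩ := τ₁.surjective x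
        rw [hsm₁, τ₁.symm_apply_apply, h₁.sl, hρ₁, hsm₀₁, τ₀₁.symm_apply_apply])
      (fun x s => by
        change x • s = τ₁.symm (τ₁ x) • s
        rw [τ₁.symm_apply_apply])
      (fun x s => by
        change x • s = τ₀₁.symm (τ₀₁ x) • s
        rw [τ₀₁.symm_apply_apply])
      τ₁.bijective τ₀₁.bijective
      Function.bijective_id Function.bijective_id (fun x => hρ₁ x) (fun s => rfl)
  have inv₀ : Module.Invertible Γ(X, V₀) N₀ := (isBC_compHom τ₀.symm (P := N₀)).invertible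
  have inv₁ : Module.Invertible Γ(X, V₁) N₁ := (isBC_compHom τ₁.symm (P := N₁)).invertible
  obtain ⟨L, hL, e₀, e₁, e₀₁, he₀, he₁, he₀₁, hr₀, hr₁⟩ :=
    exists_glue_core a₀ a₁ a₀₁ l₀ l₁ hinf hcov (ModuleCat.of Γ(X, V₀) N₀)
      (ModuleCat.of Γ(X, V₁) N₁) (ModuleCat.of Γ(X, V₀₁) N₀₁) r₀ r₁ hb₀ hb₁
  refine ⟨L, hL, e₀, e₁, e₀₁, fun y s => ?_, fun y s => ?_, fun y s => ?_, hr₀, hr₁⟩
  · refine (he₀ (τ₀ y) s).trans ?_
    change τ₀.symm (τ₀ y) • e₀ s = y • e₀ s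
    rw [τ₀.symm_apply_apply]
  · refine (he₁ (τ₁ y) s).trans ?_
    change τ₁.symm (τ₁ y) • e₁ s = y • e₁ s
    rw [τ₁.symm_apply_apply]
  · refine (he₀₁ (τ₀₁ y) s).trans ?_
    change τ₀₁.symm (τ₀₁ y) • e₀₁ s = y • e₀₁ s
    rw [τ₀₁.symm_apply_apply]

end Semilinear

end

end Fermat.Agent.S25.H505
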