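/-
S25, block DICT (helper505): `dictGlue : Stmt.DictGlue Ch` — every rigidifiable gluing datum
over `A` is the gluing datum of sections of a rigidified line bundle on `C_A`.  Built on
`GlueAffine.exists_glue_affine` (gluing on two affine charts), `H566.boxRingEquiv` and
`SectionBC.secMap_isBC`.
-/
import Fermat.Agent.S25.H505.GlueAffine
import Fermat.Agent.S25.H505.DictSections

set_option autoImplicit false
universe u
open CategoryTheory CategoryTheory.Limits AlgebraicGeometry AlgebraicGeometry.RelPicard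
  NeronModelInfra GoodReductionJacobian
open scoped TensorProduct

namespace Fermat.Agent.S25.H505

noncomputable section

section Triv

variable {R : CommRingCat.{u}}

/-- An invertible module on `Spec R` whose module of global sections is free of rank one is
trivial. -/
theorem nonempty_iso_unit_of_equiv (M : (Spec R).Modules) (hM : Scheme.Modules.IsInvertible M)
    (E : Γ(M, ⊤) ≃+ R) (hE : IsSL (Scheme.ΓSpecIso R).hom.hom E.toAddMonoidHom) :
    Nonempty (M ≅ SheafOfModules.unit (Spec R).ringCatSheaf) := by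
  let e' : (moduleSpecΓFunctor.obj M) ≃ₗ[R] (ModuleCat.of R R) :=
    { E with
      map_smul' := fun r x => by
        have h1 : r • (show Γ(M, ⊤) from x) =
            ((Spec R).presheaf.map (⊤ : (Spec R).Opens).leTop.op)
              ((Scheme.ΓSpecIso R).inv r) • (show Γ(M, ⊤) from x) :=
          Scheme.Modules.smul_Spec_def r x
        have h2 : ((Spec R).presheaf.map (⊤ : (Spec R).Opens).leTop.op)
            ((Scheme.ΓSpecIso R).inv r) = (Scheme.ΓSpecIso R).inv r := by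
          have : (Spec R).presheaf.map (⊤ : (Spec R).Opens).leTop.op = 𝟙 _ := by
            rw [← (Spec R).presheaf.map_id]; rfl
          rw [this]; rfl
        rw [h2] at h1
        change E (r • (show Γ(M, ⊤) from x)) = r • E x
        rw [h1]
        refine (hE _ _).trans ?_
        congr 1
        exact congr($((Scheme.ΓSpecIso R).inv_hom_id) r) }
  exact ⟨(tildeΓIsoOfIsInvertible M hM).symm ≪≫ (tilde.functor R).mapIso e'.toModuleIso ≪≫
    tildeSelf⟩

end Triv

variable {k : Type u} [Field k] {C : Scheme.{u}} {c : C ⟶ Spec (CommRingCat.of k)}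
  {ε : SchemeHomOver (𝟙 (Spec (CommRingCat.of k))) c}

section Rig

variable (Ch : ChartOf c ε) (A : Type u) [CommRing A] [Algebra k A]

/-- An invertible module on `C_A` whose module of sections over `U₁^A` becomes free of rank
one after base change along the marked point is rigidified. -/
theorem rigidified_of_isBC (L : (pullback c (specStr k A)).Modules)
    (hL : Scheme.Modules.IsInvertible L) {N₁ : Type u} [AddCommGroup N₁]
    [Module (A ⊗[k] Ch.B₁) N₁] (e₁ : Γ(L, preimageOpen (c := c) A Ch.U₁) ≃+ N₁)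
    (h₁ : ∀ (y : A ⊗[k] Ch.B₁) (s : Γ(L, preimageOpen (c := c) A Ch.U₁)),
      e₁ (H566.boxRingEquiv (A := A) Ch.isAffine₁ Ch.i₁ Ch.i₁_str y • s) = y • e₁ s)
    (b : N₁ →+ A) (hb : IsBC (epsHom Ch.e A).toRingHom b) :
    Nonempty ((Scheme.Modules.pullback (rigSection c (specStr k A) ε)).obj L ≅
      SheafOfModules.unit (Spec (CommRingCat.of A)).ringCatSheaf) := by
  have : L.IsQuasicoherent := isQuasicoherent_of_isInvertible L hL
  have a₁ := isAffineOpen_preimageOpen c A Ch.isAffine₁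
  have hκ : IsBC (rigRing Ch A) (secMap (rigMap (ε := ε) A) L (le_rigMap_preimage Ch A)).hom :=
    secMap_isBC _ L a₁ (isAffineOpen_top _) _
  have he₁ : IsBC (H566.boxRingEquiv (A := A) Ch.isAffine₁ Ch.i₁ Ch.i₁_str).symm.toRingHom
      e₁.toAddMonoidHom :=
    isBC_of_bijective (fun r s => by
      obtain ⟨y, rfl⟩ := (H566.boxRingEquiv (A := A) Ch.isAffine₁ Ch.i₁ Ch.i₁_str).surjective r
      change e₁ (_ • s) = (H566.boxRingEquiv (A := A) Ch.isAffine₁ Ch.i₁ Ch.i₁_str).symm _ • e₁ s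
      rw [RingEquiv.symm_apply_apply]
      exact h₁ y s)
      (H566.boxRingEquiv (A := A) Ch.isAffine₁ Ch.i₁ Ch.i₁_str).symm.bijective e₁.bijective
  have hg₂ := he₁.comp hb
  obtain ⟨E, hE, -⟩ := hκ.exists_equiv
    (Scheme.ΓSpecIso (CommRingCat.of A)).commRingCatIsoToRingEquiv hg₂ (fun r => by
      have := rigRing_boxRingEquiv Ch A
        ((H566.boxRingEquiv (A := A) Ch.isAffine₁ Ch.i₁ Ch.i₁_str).symm r)
      rw [RingEquiv.apply_symm_apply] at this
      exact this)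
  exact nonempty_iso_unit_of_equiv (R := CommRingCat.of A) _ (hL.pullback _) E
    (fun r s => hE r s)

end Rig

/-- **DICT-GLUE**: every rigidifiable gluing datum over `A` is the gluing datum of sections of
a rigidified line bundle on `C_A`. -/
theorem dictGlue (Ch : ChartOf c ε) : Stmt.DictGlue Ch := by
  intro A _ _ G hG
  have a₀ := isAffineOpen_preimageOpen c A Ch.isAffine₀
  have a₁ := isAffineOpen_preimageOpen c A Ch.isAffine₁
  have a₀₁ := isAffineOpen_preimageOpen c A (H566.chart_isAffine₀₁ Ch)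
  have l₀ : preimageOpen (c := c) A (Ch.U₀ ⊓ Ch.U₁) ≤ preimageOpen (c := c) A Ch.U₀ :=
    Scheme.Hom.preimage_mono _ inf_le_left
  have l₁ : preimageOpen (c := c) A (Ch.U₀ ⊓ Ch.U₁) ≤ preimageOpen (c := c) A Ch.U₁ :=
    Scheme.Hom.preimage_mono _ inf_le_right
  have hinf : preimageOpen (c := c) A Ch.U₀ ⊓ preimageOpen (c := c) A Ch.U₁ ≤
      preimageOpen (c := c) A (Ch.U₀ ⊓ Ch.U₁) := fun x hx => hx
  have hcov : preimageOpen (c := c) A Ch.U₀ ⊔ preimageOpen (c := c) A Ch.U₁ = ⊤ := by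
    refine top_le_iff.mp (fun x _ => ?_)
    have hx : (pullback.fst c (specStr k A)) x ∈ Ch.U₀ ⊔ Ch.U₁ := by
      rw [Ch.cover]; trivial
    rcases hx with hx | hx
    · exact Or.inl hx
    · exact Or.inr hx
  obtain ⟨b, hb⟩ := hG
  obtain ⟨L, hL, e₀, e₁, e₀₁, h₀, h₁, h₀₁, hr₀, hr₁⟩ :=
    exists_glue_affine a₀ a₁ a₀₁ l₀ l₁ hinf hcov
      (H566.boxRingEquiv (A := A) Ch.isAffine₀ Ch.i₀ Ch.i₀_str)
      (H566.boxRingEquiv (A := A) Ch.isAffine₁ Ch.i₁ Ch.i₁_str)
      (H566.boxRingEquiv (A := A) (H566.chart_isAffine₀₁ Ch) Ch.i₀₁ (H566.chart_i₀₁_str Ch))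
      (algebraMap (A ⊗[k] Ch.B₀) (A ⊗[k] Ch.B₀₁)) (algebraMap (A ⊗[k] Ch.B₁) (A ⊗[k] Ch.B₀₁))
      (fun x => H566.boxRingEquiv_res (A := A) Ch.isAffine₀ (H566.chart_isAffine₀₁ Ch)
        inf_le_left Ch.i₀ Ch.i₀_str Ch.i₀₁ (H566.chart_i₀₁_str Ch) Ch.i₀₁_res₀ x)
      (fun x => H566.boxRingEquiv_res (A := A) Ch.isAffine₁ (H566.chart_isAffine₀₁ Ch)
        inf_le_right Ch.i₁ Ch.i₁_str Ch.i₀₁ (H566.chart_i₀₁_str Ch) Ch.i₀₁_res₁ x)
      G.r₀.toAddMonoidHom G.r₁.toAddMonoidHom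
      (isBC_of_isBaseChange G.r₀ G.isBaseChange₀) (isBC_of_isBaseChange G.r₁ G.isBaseChange₁)
      G.invertible₀ G.invertible₁
  refine ⟨⟨L, hL, rigidified_of_isBC Ch A L hL e₁ h₁ b.toAddMonoidHom
    (isBC_of_isSemilinearBaseChange _ b hb)⟩, e₀, e₁, e₀₁, ?_, ?_, ?_, hr₀, hr₁⟩
  · refine isSectionsIso_of_isSL c Ch.isAffine₀ Ch.i₀ Ch.i₀_str L e₀ (fun r s => ?_)
    have := h₀ ((H566.boxRingEquiv (A := A) Ch.isAffine₀ Ch.i₀ Ch.i₀_str).symm r) s
    rwa [RingEquiv.apply_symm_apply] at this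
  · refine isSectionsIso_of_isSL c Ch.isAffine₁ Ch.i₁ Ch.i₁_str L e₁ (fun r s => ?_)
    have := h₁ ((H566.boxRingEquiv (A := A) Ch.isAffine₁ Ch.i₁ Ch.i₁_str).symm r) s
    rwa [RingEquiv.apply_symm_apply] at this
  · refine isSectionsIso_of_isSL c (H566.chart_isAffine₀₁ Ch) Ch.i₀₁ (H566.chart_i₀₁_str Ch) L
      e₀₁ (fun r s => ?_)
    have := h₀₁ ((H566.boxRingEquiv (A := A) (H566.chart_isAffine₀₁ Ch) Ch.i₀₁
      (H566.chart_i₀₁_str Ch)).symm r) s
    rwa [RingEquiv.apply_symm_apply] at this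

end

end Fermat.Agent.S25.H505
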