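/-
S25, block DICT-GLUE (helper505): the module `affPush a N = (fromSpec)_* (tilde N)` on `X`
attached to a module `N` over the ring of an affine open `V`, its sections over `V`, and the
transition morphisms `affPush a N ⟶ affPush a' N'` attached to a base-change map `N → N'`
for affine opens `V' ≤ V`.
-/
import Fermat.Agent.S25.H505.SectionBC

open CategoryTheory AlgebraicGeometry Opposite TopologicalSpace

universe u

namespace Fermat.Agent.S25.H505

noncomputable section

variable {X : Scheme.{u}}

section AffPush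

variable {V : X.Opens} (a : IsAffineOpen V) (N : ModuleCat.{u} Γ(X, V))

/-- The pushforward to `X` of `tilde N` on `Spec Γ(X, V)`, for an affine open `V`. -/
def affPush : X.Modules := (Scheme.Modules.pushforward a.fromSpec).obj (tilde N)

theorem top_le_fromSpec_preimage : (⊤ : (Spec Γ(X, V)).Opens) ≤ a.fromSpec ⁻¹ᵁ V := by
  rw [a.fromSpec_preimage_self]

/-- `N → Γ(affPush a N, V)`. -/
def affPushTop : N →+ Γ(affPush a N, V) :=
  ((tilde N).presheaf.map (homOfLE (le_top : a.fromSpec ⁻¹ᵁ V ≤ ⊤)).op).hom.comp (tildeTop N)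

theorem affPushTop_apply (n : N) :
    affPushTop a N n =
      (tilde N).presheaf.map (homOfLE (le_top : a.fromSpec ⁻¹ᵁ V ≤ ⊤)).op (tildeTop N n) := rfl

theorem affPushTop_bijective : Function.Bijective (affPushTop a N) :=
  (presheaf_map_bijective_of_eq (tilde N) le_top (top_le_fromSpec_preimage a)).comp
    (tildeTop_bijective N)

theorem affPushTop_smul (x : Γ(X, V)) (n : N) :
    affPushTop a N (x • n) = x • affPushTop a N n := by
  rw [affPushTop_apply, affPushTop_apply, tildeTop_isSL N x n, Scheme.Modules.map_smul]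
  refine Eq.trans ?_ (pushforward_smul a.fromSpec (tilde N) V x _).symm
  congr 1
  exact (congr($(a.fromSpec_app_self) x)).symm

end AffPush

section Transition

variable {V V' : X.Opens} (a : IsAffineOpen V) (a' : IsAffineOpen V') (l : V' ≤ V)
  (N : ModuleCat.{u} Γ(X, V)) (N' : ModuleCat.{u} Γ(X, V'))

/-- the restriction of functions, as a morphism of commutative rings -/
abbrev resCat : Γ(X, V) ⟶ Γ(X, V') := X.presheaf.map (homOfLE l).op

include a a' in
theorem specMap_resCat_fromSpec : Spec.map (resCat l) ≫ a.fromSpec = a'.fromSpec :=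
  a.map_fromSpec a' (homOfLE l).op

variable {N N'}

/-- a base-change map `r : N → N'` along the restriction identifies `N'` with the extension
of scalars of `N` -/
theorem exists_extendScalars_iso (r : N →+ N') (hr : IsBC (resCat l).hom r) :
    ∃ e : (ModuleCat.extendScalars (resCat l).hom).obj N ≅ N',
      ∀ n, e.hom (extUnit (resCat l) N n) = r n := by
  obtain ⟨e, hsl, he⟩ := (extUnit_isBC (resCat l) N).exists_equiv (RingEquiv.refl _) hr
    (fun _ => rfl)
  let e' : (ModuleCat.extendScalars (resCat l).hom).obj N ≃ₗ[Γ(X, V')] N' :=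
    { e with map_smul' := fun x n => hsl x n }
  exact ⟨e'.toModuleIso, he⟩

variable (e : (ModuleCat.extendScalars (resCat l).hom).obj N ≅ N')

/-- the isomorphism `(Spec res)^* (tilde N) ≅ tilde N'` induced by `e` -/
def affThetaIso : (Scheme.Modules.pullback (Spec.map (resCat l))).obj (tilde N) ≅ tilde N' :=
  pullbackTildeIso (resCat l) N ≪≫ (tilde.functor _).mapIso e

/-- the transition morphism `affPush a N ⟶ affPush a' N'` -/
def affTrans : affPush a N ⟶ affPush a' N' :=
  (Scheme.Modules.pushforward a.fromSpec).map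
      ((Scheme.Modules.pullbackPushforwardAdjunction (Spec.map (resCat l))).unit.app (tilde N) ≫
        (Scheme.Modules.pushforward (Spec.map (resCat l))).map (affThetaIso l e).hom) ≫
    (Scheme.Modules.pushforwardComp (Spec.map (resCat l)) a.fromSpec).hom.app (tilde N') ≫
    (Scheme.Modules.pushforwardCongr (specMap_resCat_fromSpec a a' l)).hom.app (tilde N')

theorem preimage_le_of_fac (W : X.Opens) :
    a'.fromSpec ⁻¹ᵁ W ≤ (Spec.map (resCat l)) ⁻¹ᵁ (a.fromSpec ⁻¹ᵁ W) := by
  rw [← Scheme.Hom.comp_preimage, specMap_resCat_fromSpec a a' l]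

theorem affTrans_app_apply (W : X.Opens) (s : Γ(affPush a N, W)) :
    (affTrans a a' l e).app W s =
      (tilde N').presheaf.map (homOfLE (preimage_le_of_fac a a' l W)).op
        ((affThetaIso l e).hom.app ((Spec.map (resCat l)) ⁻¹ᵁ (a.fromSpec ⁻¹ᵁ W))
          (unitSec (Spec.map (resCat l)) (tilde N) (a.fromSpec ⁻¹ᵁ W) s)) := rfl

include a a' in
theorem isOpenImmersion_specMap_resCat : IsOpenImmersion (Spec.map (resCat l)) := by
  have h : IsOpenImmersion (Spec.map (resCat l) ≫ a.fromSpec) := by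
    rw [specMap_resCat_fromSpec a a' l]
    infer_instance
  exact IsOpenImmersion.of_comp (Spec.map (resCat l)) a.fromSpec

include a' in
theorem fromSpec_preimage_le_image [IsOpenImmersion (Spec.map (resCat l))] (W : X.Opens)
    (hW : W ⊓ V ≤ V') :
    a.fromSpec ⁻¹ᵁ W ≤
      (Spec.map (resCat l)) ''ᵁ ((Spec.map (resCat l)) ⁻¹ᵁ (a.fromSpec ⁻¹ᵁ W)) := by
  rw [Scheme.Hom.image_preimage_eq_opensRange_inf]
  refine le_inf ?_ le_rfl
  intro x hx
  have hxV : a.fromSpec x ∈ V := by
    have : a.fromSpec x ∈ a.fromSpec.opensRange := ⟨x, rfl⟩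
    rwa [a.opensRange_fromSpec] at this
  have hx' : a.fromSpec x ∈ V' := hW ⟨hx, hxV⟩
  rw [← a'.opensRange_fromSpec] at hx'
  obtain ⟨y, hy⟩ := hx'
  refine ⟨y, ?_⟩
  apply a.fromSpec.isOpenEmbedding.injective
  rw [← hy, ← specMap_resCat_fromSpec a a' l]
  rfl

theorem unitSec_bijective_of_isOpenImmersion {Y : Scheme.{u}} (j : Y ⟶ X) [IsOpenImmersion j]
    (M : X.Modules) (U : X.Opens) (h' : U ≤ j ''ᵁ (j ⁻¹ᵁ U)) :
    Function.Bijective (unitSec j M U) := by
  have h := secMap_bijective_of_isOpenImmersion j M (le_refl (j ⁻¹ᵁ U)) h'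
  have e : ∀ s, secMap j M (le_refl (j ⁻¹ᵁ U)) s = unitSec j M U s := fun s => by
    rw [secMap_apply, presheaf_map_self]
  refine ⟨fun x y hxy => h.1 (by rw [e, e, hxy]), fun y => ?_⟩
  obtain ⟨x, hx⟩ := h.2 y
  exact ⟨x, by rw [← e, hx]⟩

theorem affTrans_app_bijective (W : X.Opens) (hW : W ⊓ V ≤ V') :
    Function.Bijective ((affTrans a a' l e).app W) := by
  have := isOpenImmersion_specMap_resCat a a' l
  have h1 : Function.Bijective (unitSec (Spec.map (resCat l)) (tilde N) (a.fromSpec ⁻¹ᵁ W)) :=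
    unitSec_bijective_of_isOpenImmersion _ _ _ (fromSpec_preimage_le_image a a' l W hW)
  have h2 : Function.Bijective ((affThetaIso l e).hom.app
      ((Spec.map (resCat l)) ⁻¹ᵁ (a.fromSpec ⁻¹ᵁ W))) :=
    ConcreteCategory.bijective_of_isIso _
  have h3 : Function.Bijective ((tilde N').presheaf.map
      (homOfLE (preimage_le_of_fac a a' l W)).op) :=
    presheaf_map_bijective_of_eq _ _ (by
      rw [← Scheme.Hom.comp_preimage, specMap_resCat_fromSpec a a' l])
  exact h3.comp (h2.comp h1)

theorem affThetaIso_top (r : N →+ N') (he : ∀ n, e.hom (extUnit (resCat l) N n) = r n) (n : N) :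
    (affThetaIso l e).hom.app ((Spec.map (resCat l)) ⁻¹ᵁ ⊤)
        (unitSec (Spec.map (resCat l)) (tilde N) ⊤ (tildeTop N n)) =
      tildeTop N' (r n) := by
  have h1 := unit_compat_apply (resCat l) N n
  have h2 : (affThetaIso l e).hom.app ((Spec.map (resCat l)) ⁻¹ᵁ ⊤)
      (unitSec (Spec.map (resCat l)) (tilde N) ⊤ (tildeTop N n)) =
      ((tilde.functor _).map e.hom).app ⊤ ((pullbackTildeIso (resCat l) N).hom.app ⊤
        (unitSec (Spec.map (resCat l)) (tilde N) ⊤ ((tilde.toOpen N ⊤).hom n))) := rfl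
  rw [h2, h1, ← he n]
  have h3 := tilde.toOpen_map_app e.hom ⊤
  exact congr(($h3).hom (((ModuleCat.extendRestrictScalarsAdj (resCat l).hom).unit.app N).hom n))

theorem affTrans_affPushTop (r : N →+ N') (he : ∀ n, e.hom (extUnit (resCat l) N n) = r n)
    (n : N) :
    (affTrans a a' l e).app V'
        ((affPush a N).presheaf.map (homOfLE l).op (affPushTop a N n)) =
      affPushTop a' N' (r n) := by
  have l1 : a.fromSpec ⁻¹ᵁ V' ≤ (⊤ : (Spec Γ(X, V)).Opens) := le_top
  have h1 : (affPush a N).presheaf.map (homOfLE l).op (affPushTop a N n) =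
      (tilde N).presheaf.map (homOfLE l1).op (tildeTop N n) :=
    presheaf_map_map (tilde N) le_top (a.fromSpec.preimage_mono l) (tildeTop N n)
  rw [affTrans_app_apply, h1, unitSec_res, hom_app_res, presheaf_map_map,
    affThetaIso_top l e r he n]
  rfl

end Transition

end

end Fermat.Agent.S25.H505
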